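/-
S25 package CONN (helper6731).  Ideal data on a two-chart and the associated glued modules.

An *ideal datum* on a two-chart `𝔹` is a pair of ideals `I₁ ⊆ B₁`, `I₂ ⊆ B₂` generating the same
ideal of `B₁₂` (a quasi-coherent ideal sheaf on the glued scheme).  It gives a glued module
`D.toGlued` (the ideal sheaf itself).  Ideal data form a commutative monoid under products.

Builds on `Core.lean` (helper5425) and `A1/Basic.lean` (helper7630), both verbatim.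
-/
import Fermat.Agent.S25.A1.Basic

set_option autoImplicit false

universe u

namespace Fermat.Agent.S25.CONN

open Fermat.Agent.S25

variable {R : Type u} [CommRing R]

/-- An ideal datum on a two-chart: ideals of the two chart rings with the same extension to the
overlap ring. -/
@[ext] structure IdealDatum (𝔹 : TwoChart R) where
  I₁ : Ideal 𝔹.B₁
  I₂ : Ideal 𝔹.B₂
  compat : I₁.map 𝔹.r₁ = I₂.map 𝔹.r₂

namespace IdealDatum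

variable {𝔹 : TwoChart R}

/-- The extension of an ideal datum to the overlap ring. -/
def I₁₂ (D : IdealDatum 𝔹) : Ideal 𝔹.B₁₂ := D.I₁.map 𝔹.r₁

theorem I₁₂_eq₂ (D : IdealDatum 𝔹) : D.I₁₂ = D.I₂.map 𝔹.r₂ := D.compat

theorem r₁_mem (D : IdealDatum 𝔹) {a : 𝔹.B₁} (ha : a ∈ D.I₁) : 𝔹.r₁ a ∈ D.I₁₂ :=
  Ideal.mem_map_of_mem _ ha

theorem r₂_mem (D : IdealDatum 𝔹) {a : 𝔹.B₂} (ha : a ∈ D.I₂) : 𝔹.r₂ a ∈ D.I₁₂ := by
  rw [I₁₂_eq₂]; exact Ideal.mem_map_of_mem _ ha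

/-- Every element of `I₁ B₁₂` is `g^m · r₁ a` with `a ∈ I₁`. -/
theorem exists_of_mem_I₁₂ (D : IdealDatum 𝔹) {y : 𝔹.B₁₂} (hy : y ∈ D.I₁₂) :
    ∃ (a : 𝔹.B₁) (m : ℕ), a ∈ D.I₁ ∧ y = 𝔹.r₂ 𝔹.g ^ m * 𝔹.r₁ a := by
  have hfg : ∀ j : ℕ, 𝔹.r₂ 𝔹.g ^ j * 𝔹.r₁ 𝔹.f ^ j = 1 := fun j => by
    rw [← mul_pow, 𝔹.gf, one_pow]
  unfold I₁₂ at hy
  rw [Ideal.map] at hy
  induction hy using Submodule.span_induction with
  | mem x hx =>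
    obtain ⟨a, ha, rfl⟩ := hx
    exact ⟨a, 0, ha, by simp⟩
  | zero => exact ⟨0, 0, D.I₁.zero_mem, by simp⟩
  | add x y _ _ hx hy =>
    obtain ⟨a, m, ha, rfl⟩ := hx
    obtain ⟨b, n, hb, rfl⟩ := hy
    refine ⟨𝔹.f ^ n * a + 𝔹.f ^ m * b, m + n,
      D.I₁.add_mem (D.I₁.mul_mem_left _ ha) (D.I₁.mul_mem_left _ hb), ?_⟩
    rw [map_add, map_mul, map_mul, map_pow, map_pow, pow_add]
    calc 𝔹.r₂ 𝔹.g ^ m * 𝔹.r₁ a + 𝔹.r₂ 𝔹.g ^ n * 𝔹.r₁ b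
        = 𝔹.r₂ 𝔹.g ^ m * (𝔹.r₂ 𝔹.g ^ n * 𝔹.r₁ 𝔹.f ^ n) * 𝔹.r₁ a
          + 𝔹.r₂ 𝔹.g ^ n * (𝔹.r₂ 𝔹.g ^ m * 𝔹.r₁ 𝔹.f ^ m) * 𝔹.r₁ b := by
          rw [hfg, hfg, mul_one, mul_one]
      _ = _ := by ring
  | smul c x _ hx =>
    obtain ⟨a, m, ha, rfl⟩ := hx
    obtain ⟨b, n, rfl⟩ := 𝔹.surj₁ c
    refine ⟨b * a, n + m, D.I₁.mul_mem_left _ ha, ?_⟩
    rw [smul_eq_mul, map_mul, pow_add]
    ring

/-- Every element of `I₂ B₁₂` is `f^m · r₂ a` with `a ∈ I₂`. -/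
theorem exists_of_mem_I₁₂' (D : IdealDatum 𝔹) {y : 𝔹.B₁₂} (hy : y ∈ D.I₁₂) :
    ∃ (a : 𝔹.B₂) (m : ℕ), a ∈ D.I₂ ∧ y = 𝔹.r₁ 𝔹.f ^ m * 𝔹.r₂ a := by
  have hfg : ∀ j : ℕ, 𝔹.r₁ 𝔹.f ^ j * 𝔹.r₂ 𝔹.g ^ j = 1 := fun j => by
    rw [← mul_pow, 𝔹.fg, one_pow]
  rw [I₁₂_eq₂, Ideal.map] at hy
  induction hy using Submodule.span_induction with
  | mem x hx =>
    obtain ⟨a, ha, rfl⟩ := hx
    exact ⟨a, 0, ha, by simp⟩
  | zero => exact ⟨0, 0, D.I₂.zero_mem, by simp⟩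
  | add x y _ _ hx hy =>
    obtain ⟨a, m, ha, rfl⟩ := hx
    obtain ⟨b, n, hb, rfl⟩ := hy
    refine ⟨𝔹.g ^ n * a + 𝔹.g ^ m * b, m + n,
      D.I₂.add_mem (D.I₂.mul_mem_left _ ha) (D.I₂.mul_mem_left _ hb), ?_⟩
    rw [map_add, map_mul, map_mul, map_pow, map_pow, pow_add]
    calc 𝔹.r₁ 𝔹.f ^ m * 𝔹.r₂ a + 𝔹.r₁ 𝔹.f ^ n * 𝔹.r₂ b
        = 𝔹.r₁ 𝔹.f ^ m * (𝔹.r₁ 𝔹.f ^ n * 𝔹.r₂ 𝔹.g ^ n) * 𝔹.r₂ a
          + 𝔹.r₁ 𝔹.f ^ n * (𝔹.r₁ 𝔹.f ^ m * 𝔹.r₂ 𝔹.g ^ m) * 𝔹.r₂ b := by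
          rw [hfg, hfg, mul_one, mul_one]
      _ = _ := by ring
  | smul c x _ hx =>
    obtain ⟨a, m, ha, rfl⟩ := hx
    obtain ⟨b, n, rfl⟩ := 𝔹.surj₂ c
    refine ⟨b * a, n + m, D.I₂.mul_mem_left _ ha, ?_⟩
    rw [smul_eq_mul, map_mul, pow_add]
    ring

/-- The glued module of an ideal datum (the ideal sheaf). -/
@[reducible] def toGlued (D : IdealDatum 𝔹) : GluedModule 𝔹 where
  N₁ := D.I₁
  N₂ := D.I₂
  N₁₂ := D.I₁₂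
  ι₁ :=
    { toFun := fun x => ⟨𝔹.r₁ x.1, D.r₁_mem x.2⟩
      map_add' := fun x y => Subtype.ext (map_add 𝔹.r₁ _ _)
      map_smul' := fun c x => Subtype.ext (by
        change 𝔹.r₁ (c • (x : 𝔹.B₁)) = c • 𝔹.r₁ (x : 𝔹.B₁)
        rw [map_smul]) }
  ι₂ :=
    { toFun := fun x => ⟨𝔹.r₂ x.1, D.r₂_mem x.2⟩
      map_add' := fun x y => Subtype.ext (map_add 𝔹.r₂ _ _)
      map_smul' := fun c x => Subtype.ext (by
        change 𝔹.r₂ (c • (x : 𝔹.B₂)) = c • 𝔹.r₂ (x : 𝔹.B₂)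
        rw [map_smul]) }
  ι₁_smul b n := Subtype.ext (by
    change 𝔹.r₁ (b * (n : 𝔹.B₁)) = 𝔹.r₁ b * 𝔹.r₁ (n : 𝔹.B₁)
    rw [map_mul])
  ι₂_smul b n := Subtype.ext (by
    change 𝔹.r₂ (b * (n : 𝔹.B₂)) = 𝔹.r₂ b * 𝔹.r₂ (n : 𝔹.B₂)
    rw [map_mul])
  surj₁ y := by
    obtain ⟨a, m, ha, h⟩ := D.exists_of_mem_I₁₂ y.2
    exact ⟨⟨a, ha⟩, m, Subtype.ext h⟩
  ker₁ n h := by
    have h0 : 𝔹.r₁ (n : 𝔹.B₁) = 0 := congrArg Subtype.val h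
    obtain ⟨m, hm⟩ := 𝔹.ker₁ _ h0
    exact ⟨m, Subtype.ext hm⟩
  surj₂ y := by
    obtain ⟨a, m, ha, h⟩ := D.exists_of_mem_I₁₂' y.2
    exact ⟨⟨a, ha⟩, m, Subtype.ext h⟩
  ker₂ n h := by
    have h0 : 𝔹.r₂ (n : 𝔹.B₂) = 0 := congrArg Subtype.val h
    obtain ⟨m, hm⟩ := 𝔹.ker₂ _ h0
    exact ⟨m, Subtype.ext hm⟩

@[simp] theorem toGlued_ι₁_coe (D : IdealDatum 𝔹) (x : D.I₁) :
    ((D.toGlued.ι₁ x : D.I₁₂) : 𝔹.B₁₂) = 𝔹.r₁ x := rfl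

@[simp] theorem toGlued_ι₂_coe (D : IdealDatum 𝔹) (x : D.I₂) :
    ((D.toGlued.ι₂ x : D.I₁₂) : 𝔹.B₁₂) = 𝔹.r₂ x := rfl

/-- The unit ideal datum. -/
instance : One (IdealDatum 𝔹) := ⟨⟨⊤, ⊤, by rw [Ideal.map_top, Ideal.map_top]⟩⟩

/-- The product of ideal data. -/
instance : Mul (IdealDatum 𝔹) :=
  ⟨fun D E => ⟨D.I₁ * E.I₁, D.I₂ * E.I₂, by
    rw [Ideal.map_mul, Ideal.map_mul, D.compat, E.compat]⟩⟩

@[simp] theorem one_I₁ : (1 : IdealDatum 𝔹).I₁ = ⊤ := rfl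
@[simp] theorem one_I₂ : (1 : IdealDatum 𝔹).I₂ = ⊤ := rfl
@[simp] theorem mul_I₁ (D E : IdealDatum 𝔹) : (D * E).I₁ = D.I₁ * E.I₁ := rfl
@[simp] theorem mul_I₂ (D E : IdealDatum 𝔹) : (D * E).I₂ = D.I₂ * E.I₂ := rfl

instance : CommMonoid (IdealDatum 𝔹) where
  mul_assoc a b c := by ext1 <;> simp [mul_assoc]
  one_mul a := by ext1 <;> simp
  mul_one a := by ext1 <;> simp
  mul_comm a b := by ext1 <;> simp [mul_comm]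

@[simp] theorem prod_I₁ (l : List (IdealDatum 𝔹)) : l.prod.I₁ = (l.map IdealDatum.I₁).prod := by
  induction l with
  | nil => simp
  | cons a l ih => simp [ih]

@[simp] theorem prod_I₂ (l : List (IdealDatum 𝔹)) : l.prod.I₂ = (l.map IdealDatum.I₂).prod := by
  induction l with
  | nil => simp
  | cons a l ih => simp [ih]

/-- An ideal datum is *invertible* if both chart ideals are invertible modules. -/
structure IsInvertible (D : IdealDatum 𝔹) : Prop where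
  inv₁ : Module.Invertible 𝔹.B₁ D.I₁
  inv₂ : Module.Invertible 𝔹.B₂ D.I₂

theorem IsInvertible.isLineBundle {D : IdealDatum 𝔹} (h : D.IsInvertible) :
    D.toGlued.IsLineBundle := ⟨h.inv₁, h.inv₂⟩

/-- An ideal of the overlap ring is the extension of its contraction to the first chart. -/
theorem map_comap_r₁ (𝔹 : TwoChart R) (J : Ideal 𝔹.B₁₂) : (J.comap 𝔹.r₁).map 𝔹.r₁ = J := by
  apply le_antisymm
  · exact Ideal.map_le_iff_le_comap.mpr le_rfl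
  · intro y hy
    obtain ⟨a, n, rfl⟩ := 𝔹.surj₁ y
    have ha : a ∈ J.comap 𝔹.r₁ := by
      rw [Ideal.mem_comap]
      have := J.mul_mem_right (𝔹.r₁ 𝔹.f ^ n) hy
      rwa [mul_assoc, ← mul_pow, 𝔹.gf, one_pow, mul_one] at this
    exact Ideal.mul_mem_right _ _ (Ideal.mem_map_of_mem _ ha)

/-- An ideal of the overlap ring is the extension of its contraction to the second chart. -/
theorem map_comap_r₂ (𝔹 : TwoChart R) (J : Ideal 𝔹.B₁₂) : (J.comap 𝔹.r₂).map 𝔹.r₂ = J := by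
  apply le_antisymm
  · exact Ideal.map_le_iff_le_comap.mpr le_rfl
  · intro y hy
    obtain ⟨a, n, rfl⟩ := 𝔹.surj₂ y
    have ha : a ∈ J.comap 𝔹.r₂ := by
      rw [Ideal.mem_comap]
      have := J.mul_mem_right (𝔹.r₂ 𝔹.g ^ n) hy
      rwa [mul_assoc, ← mul_pow, 𝔹.fg, one_pow, mul_one] at this
    exact Ideal.mul_mem_right _ _ (Ideal.mem_map_of_mem _ ha)

/-- The ideal datum of the closure in the glued scheme of a closed subscheme of the first chart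
(it is the honest ideal sheaf when the subscheme is closed in the glued scheme). -/
def ofI₁ {𝔹 : TwoChart R} (I : Ideal 𝔹.B₁) : IdealDatum 𝔹 where
  I₁ := I
  I₂ := (I.map 𝔹.r₁).comap 𝔹.r₂
  compat := (map_comap_r₂ 𝔹 _).symm

/-- The ideal datum of the closure of a closed subscheme of the second chart. -/
def ofI₂ {𝔹 : TwoChart R} (I : Ideal 𝔹.B₂) : IdealDatum 𝔹 where
  I₁ := (I.map 𝔹.r₂).comap 𝔹.r₁
  I₂ := I
  compat := map_comap_r₁ 𝔹 _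

@[simp] theorem ofI₁_I₁ {𝔹 : TwoChart R} (I : Ideal 𝔹.B₁) : (ofI₁ I).I₁ = I := rfl
@[simp] theorem ofI₁_I₂ {𝔹 : TwoChart R} (I : Ideal 𝔹.B₁) :
    (ofI₁ I).I₂ = (I.map 𝔹.r₁).comap 𝔹.r₂ := rfl
@[simp] theorem ofI₂_I₁ {𝔹 : TwoChart R} (I : Ideal 𝔹.B₂) :
    (ofI₂ I).I₁ = (I.map 𝔹.r₂).comap 𝔹.r₁ := rfl
@[simp] theorem ofI₂_I₂ {𝔹 : TwoChart R} (I : Ideal 𝔹.B₂) : (ofI₂ I).I₂ = I := rfl

end IdealDatum

end Fermat.Agent.S25.CONN
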