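/-
S25 package CONN (helper6731).  Point ideal data and point-product families.

For an `R`-point `x` of chart 1 (`x : A₁ →ₐ[k] R`), `pt₁ x` is the ideal datum of the graph of
`x` in `C ×_k Spec R` (chart 1: the kernel of evaluation at `x`; chart 2: the contraction of its
extension to the overlap).  `fam n x y = (∏ pt₁ (x j) · ∏ pt₂ (y j))⟨n⟩` is the family
`O(n·D_∞ - Σ x_j - Σ y_j)`.  No tensor products or duals of glued modules are needed.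
-/
import Fermat.Agent.S25.Defs
import Fermat.Agent.S25.CONN.IdealDatum

set_option autoImplicit false

universe u

namespace Fermat.Agent.S25.CONN

open Fermat.Agent.S25

open scoped TensorProduct

variable {k : Type u} [Field k] (𝒞 : CurveData k) (R : Type u) [CommRing R] [Algebra k R]

/-- Evaluation at an `R`-point of chart 1. -/
noncomputable def ev₁ (x : 𝒞.A₁ →ₐ[k] R) : (𝒞.chart R).B₁ →ₐ[R] R :=
  Algebra.TensorProduct.lift (AlgHom.id R R) x (fun _ _ => Commute.all _ _)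

/-- Evaluation at an `R`-point of chart 2. -/
noncomputable def ev₂ (y : 𝒞.A₂ →ₐ[k] R) : (𝒞.chart R).B₂ →ₐ[R] R :=
  Algebra.TensorProduct.lift (AlgHom.id R R) y (fun _ _ => Commute.all _ _)

/-- Evaluation at an `R`-point of the overlap. -/
noncomputable def ev₁₂ (z : 𝒞.A₁₂ →ₐ[k] R) : (𝒞.chart R).B₁₂ →ₐ[R] R :=
  Algebra.TensorProduct.lift (AlgHom.id R R) z (fun _ _ => Commute.all _ _)

theorem ev₁_tmul (x : 𝒞.A₁ →ₐ[k] R) (c : R) (a : 𝒞.A₁) :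
    ev₁ 𝒞 R x (c ⊗ₜ[k] a : R ⊗[k] 𝒞.A₁) = c * x a :=
  Algebra.TensorProduct.lift_tmul _ _ _ c a

theorem ev₂_tmul (y : 𝒞.A₂ →ₐ[k] R) (c : R) (a : 𝒞.A₂) :
    ev₂ 𝒞 R y (c ⊗ₜ[k] a : R ⊗[k] 𝒞.A₂) = c * y a :=
  Algebra.TensorProduct.lift_tmul _ _ _ c a

theorem ev₁₂_tmul (z : 𝒞.A₁₂ →ₐ[k] R) (c : R) (a : 𝒞.A₁₂) :
    ev₁₂ 𝒞 R z (c ⊗ₜ[k] a : R ⊗[k] 𝒞.A₁₂) = c * z a :=
  Algebra.TensorProduct.lift_tmul _ _ _ c a

/-- The ideal datum of (the graph of) an `R`-point of chart 1. -/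
noncomputable def pt₁ (x : 𝒞.A₁ →ₐ[k] R) : IdealDatum (𝒞.chart R) :=
  IdealDatum.ofI₁ (RingHom.ker (ev₁ 𝒞 R x))

/-- The ideal datum of (the graph of) an `R`-point of chart 2. -/
noncomputable def pt₂ (y : 𝒞.A₂ →ₐ[k] R) : IdealDatum (𝒞.chart R) :=
  IdealDatum.ofI₂ (RingHom.ker (ev₂ 𝒞 R y))

/-- The point-product family `O(n·D_∞ - Σ_j x_j - Σ_j y_j)` on `C ×_k Spec R`. -/
noncomputable def fam (n : ℤ) {m₁ m₂ : ℕ} (x : Fin m₁ → 𝒞.A₁ →ₐ[k] R)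
    (y : Fin m₂ → 𝒞.A₂ →ₐ[k] R) : GluedModule (𝒞.chart R) :=
  ((∏ j, pt₁ 𝒞 R (x j)) * (∏ j, pt₂ 𝒞 R (y j))).toGlued.twist n

end Fermat.Agent.S25.CONN
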