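/-
S25 package CONN, leaf (P1) (helper6731): point-product families are line bundles, over ANY
`k`-algebra `R`.

* chart of the point: the graph ideal is invertible (helper325, copied under `CONN/P1/`);
* other chart: `I₂ = comap r₂ (map r₁ I₁)` contains `u = 1 - c g` (`c = x f`), so
  `Spec B₂ = D(g) ∪ D(u)`; on `D(g)` the ideal is the localisation of `I₁`, on `D(u)` it is the
  unit ideal (`CONN/P1/Local.lean`, using helper9105's local criterion);
* products of invertible ideals are invertible.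
-/
import Fermat.Agent.S25.CONN.Points
import Fermat.Agent.S25.CONN.P1.Local
import Fermat.Agent.S25.CONN.P1.InvCurve325

set_option autoImplicit false

universe u

namespace Fermat.Agent.S25.CONN

open Fermat.Agent.S25 GluedModule

open scoped TensorProduct

namespace IdealDatum

variable {R : Type u} [CommRing R] {𝔹 : TwoChart R}

/-- The ideal datum of a closed subscheme of chart 1 which is closed in the glued scheme
(witness: `u + b g = 1` with `u` in the ideal on the overlap) is invertible if its chart-1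
ideal is. -/
theorem ofI₁_isInvertible (I : Ideal 𝔹.B₁) (hI : Module.Invertible 𝔹.B₁ I) (u b : 𝔹.B₂)
    (hu : 𝔹.r₂ u ∈ I.map 𝔹.r₁) (hub : u + b * 𝔹.g = 1) : (ofI₁ I).IsInvertible := by
  refine ⟨hI, ?_⟩
  let J : IdealDatum 𝔹 := ofI₁ I
  have inv₁₂ : Module.Invertible 𝔹.B₁₂ J.I₁₂ := by
    letI := 𝔹.algebra₁
    letI := J.toGlued.module₁
    haveI := J.toGlued.isScalarTower₁
    haveI := 𝔹.isLocalization₁
    haveI := J.toGlued.isLocalizedModule₁
    haveI : Module.Invertible 𝔹.B₁ J.toGlued.N₁ := hI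
    exact Module.Invertible.of_isLocalization (Submonoid.powers 𝔹.f) J.toGlued.ι₁ₗ
  letI := 𝔹.algebra₂
  letI := J.toGlued.module₂
  haveI := J.toGlued.isScalarTower₂
  haveI := 𝔹.isLocalization₂
  haveI := J.toGlued.isLocalizedModule₂
  exact P1.invertible_of_cover_two J.I₂ 𝔹.g u b (Ideal.mem_comap.mpr hu) hub 𝔹.B₁₂
    J.toGlued.ι₂ₗ

/-- Symmetric version of `ofI₁_isInvertible`. -/
theorem ofI₂_isInvertible (I : Ideal 𝔹.B₂) (hI : Module.Invertible 𝔹.B₂ I) (u b : 𝔹.B₁)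
    (hu : 𝔹.r₁ u ∈ I.map 𝔹.r₂) (hub : u + b * 𝔹.f = 1) : (ofI₂ I).IsInvertible := by
  refine ⟨?_, hI⟩
  let J : IdealDatum 𝔹 := ofI₂ I
  have h₁₂ : J.I₁₂ = I.map 𝔹.r₂ := J.compat
  have inv₁₂ : Module.Invertible 𝔹.B₁₂ J.I₁₂ := by
    letI := 𝔹.algebra₂
    letI := J.toGlued.module₂
    haveI := J.toGlued.isScalarTower₂
    haveI := 𝔹.isLocalization₂
    haveI := J.toGlued.isLocalizedModule₂
    haveI : Module.Invertible 𝔹.B₂ J.toGlued.N₂ := hI
    exact Module.Invertible.of_isLocalization (Submonoid.powers 𝔹.g) J.toGlued.ι₂ₗ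
  letI := 𝔹.algebra₁
  letI := J.toGlued.module₁
  haveI := J.toGlued.isScalarTower₁
  haveI := 𝔹.isLocalization₁
  haveI := J.toGlued.isLocalizedModule₁
  exact P1.invertible_of_cover_two J.I₁ 𝔹.f u b (Ideal.mem_comap.mpr hu) hub 𝔹.B₁₂
    J.toGlued.ι₁ₗ

theorem IsInvertible.one : (1 : IdealDatum 𝔹).IsInvertible :=
  ⟨Module.Invertible.congr (Submodule.topEquiv (R := 𝔹.B₁) (M := 𝔹.B₁)).symm,
   Module.Invertible.congr (Submodule.topEquiv (R := 𝔹.B₂) (M := 𝔹.B₂)).symm⟩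

theorem IsInvertible.mul {D E : IdealDatum 𝔹} (hD : D.IsInvertible) (hE : E.IsInvertible) :
    (D * E).IsInvertible := by
  haveI := hD.inv₁
  haveI := hD.inv₂
  haveI := hE.inv₁
  haveI := hE.inv₂
  exact ⟨P1.invertible_mul D.I₁ E.I₁, P1.invertible_mul D.I₂ E.I₂⟩

theorem IsInvertible.prod {ι : Type*} (s : Finset ι) (D : ι → IdealDatum 𝔹)
    (h : ∀ i ∈ s, (D i).IsInvertible) : (∏ i ∈ s, D i).IsInvertible := by
  classical
  induction s using Finset.induction_on with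
  | empty => simpa using IsInvertible.one
  | insert a s ha ih =>
    rw [Finset.prod_insert ha]
    exact (h a (Finset.mem_insert_self a s)).mul
      (ih fun i hi => h i (Finset.mem_insert_of_mem hi))

end IdealDatum

variable {k : Type u} [Field k] (𝒞 : CurveData k) [IsAlgClosed k]

/-- The ideal datum of an `R`-point of chart 1 is invertible. -/
theorem pt₁_isInvertible (R : Type u) [CommRing R] [Algebra k R] (x : 𝒞.A₁ →ₐ[k] R) :
    (pt₁ 𝒞 R x).IsInvertible := by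
  have hmem : (𝒞.chart R).f - algebraMap R (𝒞.chart R).B₁ (x 𝒞.f) ∈
      RingHom.ker (ev₁ 𝒞 R x) := by
    rw [RingHom.mem_ker, map_sub, AlgHom.commutes]
    change ev₁ 𝒞 R x (1 ⊗ₜ[k] 𝒞.f) - _ = 0
    rw [ev₁_tmul, one_mul]
    exact sub_self _
  refine IdealDatum.ofI₁_isInvertible _ (P1.H325.invertible_graphIdeal₁ 𝒞 x)
    (1 - algebraMap R (𝒞.chart R).B₂ (x 𝒞.f) * (𝒞.chart R).g)
    (algebraMap R (𝒞.chart R).B₂ (x 𝒞.f)) ?_ (by ring)
  have h := Ideal.mul_mem_right ((𝒞.chart R).r₂ (𝒞.chart R).g) _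
    (Ideal.mem_map_of_mem (𝒞.chart R).r₁ hmem)
  rw [map_sub, sub_mul, (𝒞.chart R).fg, AlgHom.commutes] at h
  rw [map_sub, map_one, map_mul, AlgHom.commutes]
  exact h

/-- The ideal datum of an `R`-point of chart 2 is invertible. -/
theorem pt₂_isInvertible (R : Type u) [CommRing R] [Algebra k R] (y : 𝒞.A₂ →ₐ[k] R) :
    (pt₂ 𝒞 R y).IsInvertible := by
  have hmem : (𝒞.chart R).g - algebraMap R (𝒞.chart R).B₂ (y 𝒞.g) ∈
      RingHom.ker (ev₂ 𝒞 R y) := by
    rw [RingHom.mem_ker, map_sub, AlgHom.commutes]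
    change ev₂ 𝒞 R y (1 ⊗ₜ[k] 𝒞.g) - _ = 0
    rw [ev₂_tmul, one_mul]
    exact sub_self _
  refine IdealDatum.ofI₂_isInvertible _ (P1.H325.invertible_graphIdeal₂ 𝒞 y)
    (1 - algebraMap R (𝒞.chart R).B₁ (y 𝒞.g) * (𝒞.chart R).f)
    (algebraMap R (𝒞.chart R).B₁ (y 𝒞.g)) ?_ (by ring)
  have h := Ideal.mul_mem_right ((𝒞.chart R).r₁ (𝒞.chart R).f) _
    (Ideal.mem_map_of_mem (𝒞.chart R).r₂ hmem)
  rw [map_sub, sub_mul, (𝒞.chart R).gf, AlgHom.commutes] at h
  rw [map_sub, map_one, map_mul, AlgHom.commutes]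
  exact h

/-- (P1) Point-product families are line bundles (ANY `k`-algebra `R`). -/
theorem fam_isLineBundle (R : Type u) [CommRing R] [Algebra k R] (n : ℤ) {m₁ m₂ : ℕ}
    (x : Fin m₁ → 𝒞.A₁ →ₐ[k] R) (y : Fin m₂ → 𝒞.A₂ →ₐ[k] R) :
    (fam 𝒞 R n x y).IsLineBundle :=
  twist_isLineBundle
    (((IdealDatum.IsInvertible.prod _ _ fun j _ => pt₁_isInvertible 𝒞 R (x j)).mul
      (IdealDatum.IsInvertible.prod _ _ fun j _ => pt₂_isInvertible 𝒞 R (y j))).isLineBundle) n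

end Fermat.Agent.S25.CONN
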