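/-
S25 package CONN, leaf (Count) (helper2485): the Euler characteristic of a point-product family
over an algebraically closed field.  EXACT name and statement of `CONN/Plan.lean` (helper6731).

Proof (in `CONN/Count/Core.lean`): point by point.  For an invertible ideal datum `J` and a point
ideal datum `P` (of either chart) the inclusion `(P J)⟨n⟩ ⊆ J⟨n⟩` has a skyscraper cokernel `T`
with `dim H⁰(T) = 1`, `H¹(T) = 0`, so `χ` drops by one and finiteness of cohomology is inherited.
The only input besides the harvested Euler-characteristic chain of helper1451 (copied under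
`CONN/Count/`) is leaf (P1) (`fam_isLineBundle`), used for invertibility of the partial products.
-/
import Fermat.Agent.S25.CONN.P1
import Fermat.Agent.S25.CONN.Count.Core

set_option autoImplicit false

universe u

namespace Fermat.Agent.S25.CONN

open Fermat.Agent.S25 GluedModule

open scoped TensorProduct

variable {k : Type u} [Field k] (𝒞 : CurveData k) [IsAlgClosed k]

/-- (Count).  The Euler characteristic of a point-product family over an algebraically closed
field: each point lowers it by one. -/
theorem chi_fam (κ : Type u) [Field κ] [IsAlgClosed κ] [Algebra k κ] (n : ℤ) {m₁ m₂ : ℕ}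
    (x : Fin m₁ → 𝒞.A₁ →ₐ[k] κ) (y : Fin m₂ → 𝒞.A₂ →ₐ[k] κ) :
    chi (fam 𝒞 κ n x y) = chi ((unit (𝒞.chart κ)).twist n) - ((m₁ + m₂ : ℕ) : ℤ) :=
  Count.chi_fam_of_isLineBundle 𝒞 κ n (fun _ _ x y => fam_isLineBundle 𝒞 κ n x y) x y

end Fermat.Agent.S25.CONN
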