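/-
S25 package CONN, leaf (Emb) (helper6731): over a field every line bundle on `C_κ` is isomorphic
to a twisted ideal datum `J⟨n⟩` (it embeds into `O⟨n⟩` for `n ≫ 0`).

Generic statement `Emb.exists_iso_twist_of_isDomain`: any two-chart with integral overlap ring
and injective restriction maps.
-/
import Fermat.Agent.S25.CONN.Points
import Fermat.Agent.S25.CONN.Lib.DomainTensor

set_option autoImplicit false

universe u

namespace Fermat.Agent.S25.CONN.Emb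

open Fermat.Agent.S25

open scoped TensorProduct

/-- An invertible module over a domain embeds into the ring. -/
theorem exists_injective_linearMap_of_invertible (D : Type*) [CommRing D] [IsDomain D]
    (M : Type*) [AddCommGroup M] [Module D M] [Module.Invertible D M] :
    ∃ ψ : M →ₗ[D] D, Function.Injective ψ := by
  classical
  let K := FractionRing D
  let i : M →ₗ[D] K ⊗[D] M := TensorProduct.mk D K M 1
  have hi : Function.Injective i := by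
    have h := Module.Flat.rTensor_preserves_injective_linearMap (M := M)
      (Algebra.linearMap D K) (IsFractionRing.injective D K)
    have hcomp : (i : M → K ⊗[D] M) =
        (LinearMap.rTensor M (Algebra.linearMap D K)) ∘ (TensorProduct.lid D M).symm := by
      funext m
      simp [i]
    rw [hcomp]
    exact h.comp (TensorProduct.lid D M).symm.injective
  obtain ⟨e⟩ := (Module.Invertible.free_iff_linearEquiv (R := K) (M := K ⊗[D] M)).mp inferInstance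
  let j : M →ₗ[D] K := (e.restrictScalars D).toLinearMap ∘ₗ i
  have hj : Function.Injective j := e.injective.comp hi
  obtain ⟨s, hs⟩ := Module.Finite.fg_top (R := D) (M := M)
  obtain ⟨d, hd⟩ := IsLocalization.exist_integer_multiples_of_finset (nonZeroDivisors D)
    (s.image j)
  have hint : ∀ m : M, ((d : D) • j) m ∈ LinearMap.range (Algebra.linearMap D K) := by
    intro m
    have hm : m ∈ Submodule.span D (s : Set M) := by rw [hs]; trivial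
    induction hm using Submodule.span_induction with
    | mem x hx =>
      obtain ⟨a, ha⟩ := hd (j x) (Finset.mem_image_of_mem _ hx)
      exact ⟨a, ha⟩
    | zero => simp
    | add x y _ _ hx hy =>
      rw [map_add]
      exact Submodule.add_mem _ hx hy
    | smul c x _ hx =>
      rw [map_smul]
      exact Submodule.smul_mem _ c hx
  let ψ' : M →ₗ[D] LinearMap.range (Algebra.linearMap D K) :=
    LinearMap.codRestrict _ ((d : D) • j) hint
  let eq : D ≃ₗ[D] LinearMap.range (Algebra.linearMap D K) :=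
    LinearEquiv.ofInjective _ (IsFractionRing.injective D K)
  refine ⟨eq.symm.toLinearMap ∘ₗ ψ', eq.symm.injective.comp ?_⟩
  intro x y hxy
  have h1 : (d : D) • j x = (d : D) • j y := congrArg Subtype.val hxy
  have hd0 : (d : D) ≠ 0 := nonZeroDivisors.coe_ne_zero d
  exact hj (smul_right_injective K hd0 h1)

/-- Single-chart step: a semilinear embedding of `M` into `B'` whose values (up to the unit `c`)
lie in the image of the injective ring map `r : B → B'` identifies `M` with an ideal of `B`. -/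
theorem exists_ideal_equiv {B B' : Type*} [CommRing B] [CommRing B'] (r : B →+* B')
    (hr : Function.Injective r) {M M' : Type*} [AddCommGroup M] [Module B M]
    [AddCommGroup M'] [Module B' M'] (ι : M →+ M')
    (hι : ∀ (b : B) (m : M), ι (b • m) = r b • ι m) (hιinj : Function.Injective ι)
    (ψ : M' →ₗ[B'] B') (hψ : Function.Injective ψ) (c : B') (hc : IsUnit c)
    (h : ∀ m, ∃ a, r a = c * ψ (ι m)) :
    ∃ (I : Ideal B) (e : M ≃ₗ[B] I), ∀ m, r (e m : B) = c * ψ (ι m) := by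
  choose φ hφ using h
  let φₗ : M →ₗ[B] B :=
    { toFun := φ
      map_add' := fun m m' => hr (by
        rw [map_add, hφ, hφ, hφ, map_add, map_add, mul_add])
      map_smul' := fun b m => hr (by
        rw [RingHom.id_apply, smul_eq_mul, map_mul, hφ, hφ, hι, map_smul, smul_eq_mul]
        ring) }
  have hinj : Function.Injective φₗ := by
    intro m m' hmm
    have h1 : c * ψ (ι m) = c * ψ (ι m') := by
      rw [← hφ, ← hφ]
      exact congrArg r hmm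
    exact hιinj (hψ (hc.mul_right_injective h1))
  refine ⟨LinearMap.range φₗ, LinearEquiv.ofInjective φₗ hinj, fun m => ?_⟩
  exact hφ m

/-- Bounded denominators: for a finitely generated module, finitely many denominators suffice. -/
theorem exists_pow_mul_mem {B B' : Type*} [CommRing B] [CommRing B'] (r : B →+* B')
    {M M' : Type*} [AddCommGroup M] [Module B M] [Module.Finite B M]
    [AddCommGroup M'] [Module B' M'] (ι : M →+ M')
    (hι : ∀ (b : B) (m : M), ι (b • m) = r b • ι m)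
    (ψ : M' →ₗ[B'] B') (t₀ : B)
    (h : ∀ y : B', ∃ (a : B) (n : ℕ), r t₀ ^ n * y = r a) :
    ∃ N : ℕ, ∀ m, ∃ a, r a = r t₀ ^ N * ψ (ι m) := by
  classical
  obtain ⟨s, hs⟩ := Module.Finite.fg_top (R := B) (M := M)
  choose a n han using fun y => h y
  refine ⟨s.sup fun x => n (ψ (ι x)), fun m => ?_⟩
  have hm : m ∈ Submodule.span B (s : Set M) := by rw [hs]; trivial
  induction hm using Submodule.span_induction with
  | mem x hx =>
    have hle : n (ψ (ι x)) ≤ s.sup fun x => n (ψ (ι x)) :=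
      Finset.le_sup (f := fun x => n (ψ (ι x))) hx
    obtain ⟨d, hd⟩ := Nat.exists_eq_add_of_le hle
    refine ⟨t₀ ^ d * a (ψ (ι x)), ?_⟩
    rw [hd, map_mul, map_pow, ← han, pow_add]
    ring
  | zero => exact ⟨0, by simp⟩
  | add x y _ _ hx hy =>
    obtain ⟨ax, hax⟩ := hx
    obtain ⟨ay, hay⟩ := hy
    exact ⟨ax + ay, by rw [map_add, map_add, map_add, mul_add, hax, hay]⟩
  | smul c x _ hx =>
    obtain ⟨ax, hax⟩ := hx
    exact ⟨c * ax, by rw [map_mul, hax, hι, map_smul, smul_eq_mul]; ring⟩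

/-- A line bundle on a two-chart with integral overlap ring and injective restriction maps is
isomorphic to a twisted ideal datum. -/
theorem exists_iso_twist_of_isDomain {R : Type u} [CommRing R] (𝔹 : TwoChart R)
    [IsDomain 𝔹.B₁₂] (h₁ : Function.Injective 𝔹.r₁) (h₂ : Function.Injective 𝔹.r₂)
    (L : GluedModule 𝔹) (hL : L.IsLineBundle) :
    ∃ (n : ℕ) (J : IdealDatum 𝔹), J.I₁ ≠ ⊥ ∧ Nonempty (L.Iso (J.toGlued.twist n)) := by
  classical
  have := hL.inv₁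
  have := hL.inv₂
  have dom₁ : IsDomain 𝔹.B₁ := h₁.isDomain 𝔹.r₁.toRingHom
  have dom₂ : IsDomain 𝔹.B₂ := h₂.isDomain 𝔹.r₂.toRingHom
  have inv₁₂ : Module.Invertible 𝔹.B₁₂ L.N₁₂ := by
    let := 𝔹.algebra₁
    let := L.module₁
    have := L.isScalarTower₁
    have := 𝔹.isLocalization₁
    have := L.isLocalizedModule₁
    exact Module.Invertible.of_isLocalization (Submonoid.powers 𝔹.f) L.ι₁ₗ
  obtain ⟨ψ₀, hψ₀⟩ := exists_injective_linearMap_of_invertible 𝔹.B₁₂ L.N₁₂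
  have hf0 : 𝔹.f ≠ 0 := fun h => by
    have := 𝔹.fg
    rw [h, map_zero, zero_mul] at this
    exact zero_ne_one this
  have hg0 : 𝔹.g ≠ 0 := fun h => by
    have := 𝔹.fg
    rw [h, map_zero, mul_zero] at this
    exact zero_ne_one this
  have hfg : ∀ j : ℕ, 𝔹.r₁ 𝔹.f ^ j * 𝔹.r₂ 𝔹.g ^ j = 1 := fun j => by
    rw [← mul_pow, 𝔹.fg, one_pow]
  have hι₁ : Function.Injective L.ι₁ := by
    rw [injective_iff_map_eq_zero]
    intro x hx
    obtain ⟨m, hm⟩ := L.ker₁ x hx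
    have hreg : IsSMulRegular L.N₁ (𝔹.f ^ m) :=
      Module.Flat.isSMulRegular_of_nonZeroDivisors
        (mem_nonZeroDivisors_of_ne_zero (pow_ne_zero m hf0))
    exact hreg (show 𝔹.f ^ m • x = 𝔹.f ^ m • 0 by rw [hm, smul_zero])
  have hι₂ : Function.Injective L.ι₂ := by
    rw [injective_iff_map_eq_zero]
    intro x hx
    obtain ⟨m, hm⟩ := L.ker₂ x hx
    have hreg : IsSMulRegular L.N₂ (𝔹.g ^ m) :=
      Module.Flat.isSMulRegular_of_nonZeroDivisors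
        (mem_nonZeroDivisors_of_ne_zero (pow_ne_zero m hg0))
    exact hreg (show 𝔹.g ^ m • x = 𝔹.g ^ m • 0 by rw [hm, smul_zero])
  obtain ⟨N, hN⟩ := exists_pow_mul_mem 𝔹.r₁.toRingHom L.ι₁.toAddMonoidHom
    (fun b m => L.ι₁_smul b m) ψ₀ 𝔹.f (fun y => by
      obtain ⟨a, n, rfl⟩ := 𝔹.surj₁ y
      refine ⟨a, n, ?_⟩
      change 𝔹.r₁ 𝔹.f ^ n * (𝔹.r₁ a * 𝔹.r₂ 𝔹.g ^ n) = 𝔹.r₁ a
      calc 𝔹.r₁ 𝔹.f ^ n * (𝔹.r₁ a * 𝔹.r₂ 𝔹.g ^ n)
          = 𝔹.r₁ a * (𝔹.r₁ 𝔹.f ^ n * 𝔹.r₂ 𝔹.g ^ n) := by ring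
        _ = 𝔹.r₁ a := by rw [hfg, mul_one])
  let ψ : L.N₁₂ →ₗ[𝔹.B₁₂] 𝔹.B₁₂ := (𝔹.r₁ 𝔹.f ^ N) • ψ₀
  have hψapp : ∀ z, ψ z = 𝔹.r₁ 𝔹.f ^ N * ψ₀ z := fun z => rfl
  have hψ : Function.Injective ψ := by
    intro z z' hzz
    rw [hψapp, hψapp] at hzz
    have hu : IsUnit (𝔹.r₁ 𝔹.f ^ N) := IsUnit.of_mul_eq_one _ (hfg N)
    exact hψ₀ (hu.mul_right_injective hzz)
  have hN' : ∀ m, ∃ a, 𝔹.r₁.toRingHom a = 1 * ψ (L.ι₁.toAddMonoidHom m) := by
    intro m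
    obtain ⟨a, ha⟩ := hN m
    exact ⟨a, by rw [one_mul, hψapp]; exact ha⟩
  obtain ⟨n, hn⟩ := exists_pow_mul_mem 𝔹.r₂.toRingHom L.ι₂.toAddMonoidHom
    (fun b m => L.ι₂_smul b m) ψ 𝔹.g (fun y => by
      obtain ⟨a, n, rfl⟩ := 𝔹.surj₂ y
      refine ⟨a, n, ?_⟩
      change 𝔹.r₂ 𝔹.g ^ n * (𝔹.r₂ a * 𝔹.r₁ 𝔹.f ^ n) = 𝔹.r₂ a
      calc 𝔹.r₂ 𝔹.g ^ n * (𝔹.r₂ a * 𝔹.r₁ 𝔹.f ^ n)
          = 𝔹.r₂ a * (𝔹.r₁ 𝔹.f ^ n * 𝔹.r₂ 𝔹.g ^ n) := by ring
        _ = 𝔹.r₂ a := by rw [hfg, mul_one])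
  obtain ⟨I₁, e₁, he₁⟩ := exists_ideal_equiv 𝔹.r₁.toRingHom h₁ L.ι₁.toAddMonoidHom
    (fun b m => L.ι₁_smul b m) hι₁ ψ hψ 1 isUnit_one hN'
  obtain ⟨I₂, e₂, he₂⟩ := exists_ideal_equiv 𝔹.r₂.toRingHom h₂ L.ι₂.toAddMonoidHom
    (fun b m => L.ι₂_smul b m) hι₂ ψ hψ (𝔹.r₂ 𝔹.g ^ n)
    (IsUnit.of_mul_eq_one _ (by rw [mul_comm]; exact hfg n)) hn
  have he₁' : ∀ m, 𝔹.r₁ (e₁ m : 𝔹.B₁) = ψ (L.ι₁ m) := fun m => by
    have := he₁ m
    rw [one_mul] at this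
    exact this
  have he₂' : ∀ m, 𝔹.r₂ (e₂ m : 𝔹.B₂) = 𝔹.r₂ 𝔹.g ^ n * ψ (L.ι₂ m) := fun m => he₂ m
  have hI₁ : I₁.map 𝔹.r₁ = LinearMap.range ψ := by
    apply le_antisymm
    · rw [Ideal.map_le_iff_le_comap]
      intro a ha
      rw [Ideal.mem_comap]
      have : a = (e₁ (e₁.symm ⟨a, ha⟩) : 𝔹.B₁) := by rw [LinearEquiv.apply_symm_apply]
      rw [this, he₁']
      exact LinearMap.mem_range_self _ _
    · rintro y ⟨z, rfl⟩
      obtain ⟨x, m, rfl⟩ := L.surj₁ z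
      rw [map_smul, ← he₁', smul_eq_mul]
      exact Ideal.mul_mem_left _ _ (Ideal.mem_map_of_mem _ (e₁ x).2)
  have hI₂ : I₂.map 𝔹.r₂ = LinearMap.range ψ := by
    apply le_antisymm
    · rw [Ideal.map_le_iff_le_comap]
      intro a ha
      rw [Ideal.mem_comap]
      have : a = (e₂ (e₂.symm ⟨a, ha⟩) : 𝔹.B₂) := by rw [LinearEquiv.apply_symm_apply]
      rw [this, he₂']
      exact ⟨𝔹.r₂ 𝔹.g ^ n • L.ι₂ (e₂.symm ⟨a, ha⟩), by rw [map_smul, smul_eq_mul]⟩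
    · rintro y ⟨z, rfl⟩
      obtain ⟨x, m, rfl⟩ := L.surj₂ z
      have hx : ψ (L.ι₂ x) = 𝔹.r₁ 𝔹.f ^ n * 𝔹.r₂ (e₂ x : 𝔹.B₂) := by
        rw [he₂', ← mul_assoc, hfg, one_mul]
      rw [map_smul, hx, smul_eq_mul]
      exact Ideal.mul_mem_left _ _ (Ideal.mul_mem_left _ _ (Ideal.mem_map_of_mem _ (e₂ x).2))
  let J : IdealDatum 𝔹 := ⟨I₁, I₂, hI₁.trans hI₂.symm⟩
  refine ⟨n, J, ?_, ⟨?_⟩⟩
  · intro hbot
    have hbot' : I₁ = ⊥ := hbot
    have hsub : ∀ m : L.N₁, m = 0 := by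
      intro m
      have hm : (e₁ m : 𝔹.B₁) = 0 := (Submodule.eq_bot_iff I₁).mp hbot' _ (e₁ m).2
      have : e₁ m = 0 := Subtype.ext hm
      exact e₁.map_eq_zero_iff.mp this
    have h10 : (1 : 𝔹.B₁) = 0 := by
      apply FaithfulSMul.eq_of_smul_eq_smul (α := L.N₁)
      intro m
      rw [hsub m, smul_zero, smul_zero]
    exact one_ne_zero h10
  · exact
      { e₁ := e₁
        e₂ := e₂
        e₁₂ := (LinearEquiv.ofInjective ψ hψ).trans (LinearEquiv.ofEq _ _ hI₁.symm)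
        comm₁ := fun x => Subtype.ext (by
          change ψ (L.ι₁ x) = 𝔹.r₁ (e₁ x : 𝔹.B₁)
          rw [he₁'])
        comm₂ := fun x => Subtype.ext (by
          change ψ (L.ι₂ x) = ((𝔹.u ^ (n : ℤ) : 𝔹.B₁₂ˣ) : 𝔹.B₁₂) * 𝔹.r₂ (e₂ x : 𝔹.B₂)
          rw [he₂', zpow_natCast, Units.val_pow_eq_pow_val, ← mul_assoc]
          change ψ (L.ι₂ x) = 𝔹.r₁ 𝔹.f ^ n * 𝔹.r₂ 𝔹.g ^ n * ψ (L.ι₂ x)
          rw [hfg, one_mul]) }

/-- The overlap ring of a curve datum is a domain. -/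
theorem isDomain_A₁₂ {k : Type u} [Field k] (𝒞 : CurveData k) : IsDomain 𝒞.A₁₂ := by
  have := 𝒞.dom₁
  have hfg : ∀ j : ℕ, 𝒞.r₁ 𝒞.f ^ j * 𝒞.r₂ 𝒞.g ^ j = 1 := fun j => by
    rw [← mul_pow, 𝒞.fg, one_pow]
  have hnt : Nontrivial 𝒞.A₁₂ := by
    refine ⟨⟨0, 1, fun h => ?_⟩⟩
    have : (0 : 𝒞.A₁) = 1 := 𝒞.inj₁ (by rw [map_zero, map_one, h])
    exact zero_ne_one this
  have hnz : NoZeroDivisors 𝒞.A₁₂ := by
    refine ⟨fun {x y} hxy => ?_⟩
    obtain ⟨a, n, rfl⟩ := 𝒞.surj₁ x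
    obtain ⟨b, m, rfl⟩ := 𝒞.surj₁ y
    have h1 : 𝒞.r₁ (a * b) = 0 := by
      have h2 : 𝒞.r₁ (a * b) = (𝒞.r₁ a * 𝒞.r₂ 𝒞.g ^ n * (𝒞.r₁ b * 𝒞.r₂ 𝒞.g ^ m)) *
          (𝒞.r₁ 𝒞.f ^ n * 𝒞.r₁ 𝒞.f ^ m) := by
        rw [map_mul]
        calc 𝒞.r₁ a * 𝒞.r₁ b
            = 𝒞.r₁ a * 𝒞.r₁ b * ((𝒞.r₁ 𝒞.f ^ n * 𝒞.r₂ 𝒞.g ^ n) *
                (𝒞.r₁ 𝒞.f ^ m * 𝒞.r₂ 𝒞.g ^ m)) := by rw [hfg, hfg, mul_one, mul_one]
          _ = _ := by ring
      rw [h2, hxy, zero_mul]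
    have h3 : a * b = 0 := 𝒞.inj₁ (by rw [h1, map_zero])
    rcases mul_eq_zero.mp h3 with h | h
    · left; rw [h, map_zero, zero_mul]
    · right; rw [h, map_zero, zero_mul]
  exact NoZeroDivisors.to_isDomain _

end Fermat.Agent.S25.CONN.Emb

namespace Fermat.Agent.S25.CONN

open Fermat.Agent.S25

variable {k : Type u} [Field k] (𝒞 : CurveData k) [IsAlgClosed k]

/-- (Emb) Over a field every line bundle embeds into `O⟨n⟩` for `n ≫ 0`: it is isomorphic to a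
twisted ideal datum. -/
theorem exists_iso_idealDatum_twist (κ : Type u) [Field κ] [Algebra k κ]
    (L : GluedModule (𝒞.chart κ)) (hL : L.IsLineBundle) :
    ∃ (n : ℕ) (J : IdealDatum (𝒞.chart κ)), J.I₁ ≠ ⊥ ∧
      Nonempty (L.Iso (J.toGlued.twist n)) := by
  have : IsDomain 𝒞.A₁₂ := Emb.isDomain_A₁₂ 𝒞
  have : IsDomain (𝒞.chart κ).B₁₂ := Lib.isDomain_tensor k κ 𝒞.A₁₂
  exact Emb.exists_iso_twist_of_isDomain (𝒞.chart κ) (chart_aux_inj κ 𝒞.r₁ 𝒞.inj₁)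
    (chart_aux_inj κ 𝒞.r₂ 𝒞.inj₂) L hL

end Fermat.Agent.S25.CONN
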