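/-
S25 package CONN, leaf (Fac) (helper2531): over an algebraically closed field every nonzero ideal
datum on `𝒞.chart κ` is a product of point ideal data.

Abstract part (`FacAux`): on a two-chart over a ring whose chart rings are Dedekind domains (with
injective restrictions), every ideal datum with `I₁ ≠ ⊥` is a product of data `ofI₁ 𝔪`
(`𝔪` maximal in `B₁`) and `ofI₂ 𝔫` (`𝔫` maximal in `B₂`).  Concrete part: `κ ⊗[k] A_i` is a
Dedekind domain and its maximal ideals are the kernels of the evaluations `ev_i x`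
(`CONN/Fac/SmoothDedekind.lean` = helper4790's `SmoothDedekind_h4790.lean`, namespace renamed).
-/
import Fermat.Agent.S25.CONN.Points
import Fermat.Agent.S25.CONN.Fac.SmoothDedekind

set_option autoImplicit false
set_option linter.style.haveILetI false
set_option linter.unusedSectionVars false

universe u

namespace Fermat.Agent.S25.CONN

open Fermat.Agent.S25

open scoped TensorProduct

namespace FacAux

section abstract

variable {R : Type u} [CommRing R] (𝔹 : TwoChart R)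

/-- The overlap ring of a two-chart with Dedekind first chart is a Dedekind domain. -/
theorem isDedekindDomain₁₂ [IsDedekindDomain 𝔹.B₁] (hr₁ : Function.Injective 𝔹.r₁) :
    IsDedekindDomain 𝔹.B₁₂ := by
  letI := 𝔹.algebra₁
  haveI := 𝔹.isLocalization₁
  have hf : 𝔹.f ≠ 0 := by
    intro h0
    have h1 : (1 : 𝔹.B₁₂) = 0 := by
      have := 𝔹.fg
      rw [h0, map_zero, zero_mul] at this
      exact this.symm
    have h2 : 𝔹.r₁ 1 = 𝔹.r₁ 0 := by rw [map_one, map_zero, h1]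
    exact one_ne_zero (hr₁ h2)
  have hM : Submonoid.powers 𝔹.f ≤ nonZeroDivisors 𝔹.B₁ :=
    powers_le_nonZeroDivisors_of_noZeroDivisors hf
  haveI : IsDomain 𝔹.B₁₂ := IsLocalization.isDomain_of_le_nonZeroDivisors 𝔹.B₁₂ hM
  exact IsLocalization.isDedekindDomain 𝔹.B₁ hM 𝔹.B₁₂

variable [IsDedekindDomain 𝔹.B₁] [IsDedekindDomain 𝔹.B₂] [IsDedekindDomain 𝔹.B₁₂]
  (hr₁ : Function.Injective 𝔹.r₁)
  {X₁ X₂ : Type u} (p₁ : X₁ → IdealDatum 𝔹) (p₂ : X₂ → IdealDatum 𝔹)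
  (hp₁ : ∀ 𝔪 : Ideal 𝔹.B₁, 𝔪.IsMaximal → ∃ x, p₁ x = IdealDatum.ofI₁ 𝔪)
  (hp₂ : ∀ 𝔫 : Ideal 𝔹.B₂, 𝔫.IsMaximal → ∃ y, p₂ y = IdealDatum.ofI₂ 𝔫)

include hr₁ hp₁ in
/-- Peel off the chart-1 points. -/
theorem peel₁ (I : Ideal 𝔹.B₁) : ∀ J : IdealDatum 𝔹, J.I₁ = I → I ≠ ⊥ →
    ∃ (m₁ : ℕ) (x : Fin m₁ → X₁) (J' : IdealDatum 𝔹), J'.I₁ = ⊤ ∧ J = (∏ j, p₁ (x j)) * J' := by
  induction I using WellFoundedGT.induction with
  | ind I ih =>
    intro J hJ hI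
    by_cases htop : I = ⊤
    · exact ⟨0, Fin.elim0, J, hJ.trans htop, by simp⟩
    obtain ⟨𝔪, h𝔪, hle⟩ := Ideal.exists_le_maximal I htop
    obtain ⟨x, hx⟩ := hp₁ 𝔪 h𝔪
    have h𝔪0 : 𝔪 ≠ ⊥ := fun h => hI (le_bot_iff.mp (h ▸ hle))
    obtain ⟨I', hI'⟩ : 𝔪 ∣ I := Ideal.dvd_iff_le.mpr hle
    have hle₂ : J.I₂ ≤ (𝔪.map 𝔹.r₁).comap 𝔹.r₂ := by
      refine Ideal.le_comap_map.trans (Ideal.comap_mono ?_)
      rw [← J.compat, hJ]
      exact Ideal.map_mono hle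
    obtain ⟨I₂', hI₂'⟩ : (𝔪.map 𝔹.r₁).comap 𝔹.r₂ ∣ J.I₂ := Ideal.dvd_iff_le.mpr hle₂
    have hmap0 : 𝔪.map 𝔹.r₁ ≠ ⊥ := fun h => h𝔪0 ((Ideal.map_eq_bot_iff_of_injective hr₁).mp h)
    have hcompat : I'.map 𝔹.r₁ = I₂'.map 𝔹.r₂ := by
      have h1 : 𝔪.map 𝔹.r₁ * I'.map 𝔹.r₁ = 𝔪.map 𝔹.r₁ * I₂'.map 𝔹.r₂ := by
        rw [← Ideal.map_mul, ← hI', ← hJ, J.compat, hI₂', Ideal.map_mul,
          IdealDatum.map_comap_r₂]
      exact mul_left_cancel₀ hmap0 h1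
    have hI'0 : I' ≠ ⊥ := by
      rintro rfl
      exact hI (by rw [hI', Ideal.mul_bot])
    have hlt : I < I' := by
      refine lt_of_le_of_ne (hI' ▸ Ideal.mul_le_right) ?_
      intro h
      have h2 : 𝔪 * I' = ⊤ * I' := by rw [Ideal.top_mul, ← hI', h]
      exact h𝔪.ne_top (mul_right_cancel₀ hI'0 h2)
    obtain ⟨m, x', J'', hJ''top, hJ''⟩ := ih I' hlt ⟨I', I₂', hcompat⟩ rfl hI'0
    refine ⟨m + 1, Fin.cons x x', J'', hJ''top, ?_⟩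
    rw [Fin.prod_univ_succ]
    simp only [Fin.cons_zero, Fin.cons_succ]
    rw [mul_assoc, ← hJ'', hx]
    ext1
    · exact hJ.trans hI'
    · exact hI₂'

include hp₂ in
/-- Peel off the chart-2 points of an ideal datum which is trivial on chart 1. -/
theorem peel₂ (I : Ideal 𝔹.B₂) : ∀ J : IdealDatum 𝔹, J.I₂ = I → J.I₁ = ⊤ →
    ∃ (m₂ : ℕ) (y : Fin m₂ → X₂), J = ∏ j, p₂ (y j) := by
  induction I using WellFoundedGT.induction with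
  | ind I ih =>
    intro J hJ hJ₁
    have hmaptop : I.map 𝔹.r₂ = ⊤ := by rw [← hJ, ← J.compat, hJ₁, Ideal.map_top]
    have hI : I ≠ ⊥ := by
      rintro rfl
      rw [Ideal.map_bot] at hmaptop
      exact bot_ne_top hmaptop
    by_cases htop : I = ⊤
    · refine ⟨0, Fin.elim0, ?_⟩
      ext1
      · simp [hJ₁]
      · simp [hJ, htop]
    obtain ⟨𝔫, h𝔫, hle⟩ := Ideal.exists_le_maximal I htop
    obtain ⟨y, hy⟩ := hp₂ 𝔫 h𝔫
    obtain ⟨I', hI'⟩ : 𝔫 ∣ I := Ideal.dvd_iff_le.mpr hle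
    have hI'0 : I' ≠ ⊥ := by
      rintro rfl
      exact hI (by rw [hI', Ideal.mul_bot])
    have hI'top : I'.map 𝔹.r₂ = ⊤ := by
      refine top_le_iff.mp (hmaptop ▸ Ideal.map_mono ?_)
      exact hI' ▸ Ideal.mul_le_right
    have h𝔫top : (𝔫.map 𝔹.r₂).comap 𝔹.r₁ = ⊤ := by
      have : 𝔫.map 𝔹.r₂ = ⊤ := top_le_iff.mp (hmaptop ▸ Ideal.map_mono hle)
      rw [this, Ideal.comap_top]
    have hlt : I < I' := by
      refine lt_of_le_of_ne (hI' ▸ Ideal.mul_le_right) ?_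
      intro h
      have h2 : 𝔫 * I' = ⊤ * I' := by rw [Ideal.top_mul, ← hI', h]
      exact h𝔫.ne_top (mul_right_cancel₀ hI'0 h2)
    obtain ⟨m, y', hJ'⟩ := ih I' hlt ⟨⊤, I', by rw [Ideal.map_top, hI'top]⟩ rfl rfl
    refine ⟨m + 1, Fin.cons y y', ?_⟩
    rw [Fin.prod_univ_succ]
    simp only [Fin.cons_zero, Fin.cons_succ]
    rw [← hJ', hy]
    ext1
    · simp [hJ₁, h𝔫top]
    · exact hJ.trans hI'

include hr₁ hp₁ hp₂ in
/-- Factorisation of ideal data on a two-chart with Dedekind charts. -/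
theorem exists_factorization (J : IdealDatum 𝔹) (hJ : J.I₁ ≠ ⊥) :
    ∃ (m₁ m₂ : ℕ) (x : Fin m₁ → X₁) (y : Fin m₂ → X₂),
      J = (∏ j, p₁ (x j)) * (∏ j, p₂ (y j)) := by
  obtain ⟨m₁, x, J', hJ'top, hJ'⟩ := peel₁ 𝔹 hr₁ p₁ hp₁ J.I₁ J rfl hJ
  obtain ⟨m₂, y, hy⟩ := peel₂ 𝔹 p₂ hp₂ J'.I₂ J' rfl hJ'top
  exact ⟨m₁, m₂, x, y, by rw [hJ', hy]⟩

end abstract

end FacAux

namespace FacAux

/-- Nullstellensatz for `κ ⊗[k] A`: maximal ideals are kernels of the evaluations at the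
`κ`-points of `A`. -/
theorem exists_lift_ker_eq (k : Type u) [Field k] (A : Type u) [CommRing A] [Algebra k A]
    [Algebra.FiniteType k A] (κ : Type u) [Field κ] [IsAlgClosed κ] [Algebra k κ]
    (𝔪 : Ideal (κ ⊗[k] A)) (h𝔪 : 𝔪.IsMaximal) :
    ∃ x : A →ₐ[k] κ, RingHom.ker (Algebra.TensorProduct.lift (AlgHom.id κ κ) x
      (fun _ _ => Commute.all _ _) : κ ⊗[k] A →ₐ[κ] κ) = 𝔪 := by
  haveI : Algebra.FiniteType κ (κ ⊗[k] A) := inferInstance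
  obtain ⟨φ, hφ⟩ := Fac.SmDed.exists_algHom_ker_eq κ (κ ⊗[k] A) 𝔪
  refine ⟨(φ.restrictScalars k).comp Algebra.TensorProduct.includeRight, ?_⟩
  have hev : (Algebra.TensorProduct.lift (AlgHom.id κ κ)
      ((φ.restrictScalars k).comp Algebra.TensorProduct.includeRight)
      (fun _ _ => Commute.all _ _) : κ ⊗[k] A →ₐ[κ] κ) = φ := by
    apply Algebra.TensorProduct.ext
    · ext
    · ext a
      simp
  rw [hev, hφ]

end FacAux

variable {k : Type u} [Field k] (𝒞 : CurveData k) [IsAlgClosed k]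

/-- (Fac) Over an algebraically closed field every nonzero ideal datum is a product of point
ideal data (Dedekind factorisation + Nullstellensatz).  EXACT statement of `CONN/Plan.lean`. -/
theorem exists_factorization (κ : Type u) [Field κ] [IsAlgClosed κ] [Algebra k κ]
    (J : IdealDatum (𝒞.chart κ)) (hJ : J.I₁ ≠ ⊥) :
    ∃ (m₁ m₂ : ℕ) (x : Fin m₁ → 𝒞.A₁ →ₐ[k] κ) (y : Fin m₂ → 𝒞.A₂ →ₐ[k] κ),
      J = (∏ j, pt₁ 𝒞 κ (x j)) * (∏ j, pt₂ 𝒞 κ (y j)) := by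
  haveI := 𝒞.dom₁
  haveI := 𝒞.dom₂
  haveI : Algebra.FiniteType k 𝒞.A₁ :=
    Fac.SmDed.finiteType_of_locally_isStandardSmoothOfRelativeDimension k 𝒞.A₁ 1 𝒞.smooth₁
  haveI : Algebra.FiniteType k 𝒞.A₂ :=
    Fac.SmDed.finiteType_of_locally_isStandardSmoothOfRelativeDimension k 𝒞.A₂ 1 𝒞.smooth₂
  haveI : IsDedekindDomain (𝒞.chart κ).B₁ :=
    Fac.SmDed.isDedekindDomain_tensorProduct k 𝒞.A₁ 𝒞.smooth₁ κ
  haveI : IsDedekindDomain (𝒞.chart κ).B₂ :=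
    Fac.SmDed.isDedekindDomain_tensorProduct k 𝒞.A₂ 𝒞.smooth₂ κ
  have hr₁ : Function.Injective (𝒞.chart κ).r₁ := chart_aux_inj κ 𝒞.r₁ 𝒞.inj₁
  haveI : IsDedekindDomain (𝒞.chart κ).B₁₂ := FacAux.isDedekindDomain₁₂ (𝒞.chart κ) hr₁
  refine FacAux.exists_factorization (𝒞.chart κ) hr₁ (pt₁ 𝒞 κ) (pt₂ 𝒞 κ) ?_ ?_ J hJ
  · intro 𝔪 h𝔪
    obtain ⟨x, hx⟩ := FacAux.exists_lift_ker_eq k 𝒞.A₁ κ 𝔪 h𝔪
    exact ⟨x, congrArg IdealDatum.ofI₁ hx⟩
  · intro 𝔫 h𝔫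
    obtain ⟨y, hy⟩ := FacAux.exists_lift_ker_eq k 𝒞.A₂ κ 𝔫 h𝔫
    exact ⟨y, congrArg IdealDatum.ofI₂ hy⟩

end Fermat.Agent.S25.CONN
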