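/-
S25 package CONN, leaf (Ovl) (helper6731): the two descriptions of a point of the overlap agree.
-/
import Fermat.Agent.S25.CONN.Points

set_option autoImplicit false

universe u

namespace Fermat.Agent.S25.CONN

open Fermat.Agent.S25

open scoped TensorProduct

variable {k : Type u} [Field k] (𝒞 : CurveData k)

/-- Evaluation at `z ∘ r₁` is evaluation at `z` after restriction to the overlap. -/
theorem ev₁_comp_r₁ (R : Type u) [CommRing R] [Algebra k R] (z : 𝒞.A₁₂ →ₐ[k] R)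
    (b : (𝒞.chart R).B₁) :
    ev₁ 𝒞 R (z.comp 𝒞.r₁) b = ev₁₂ 𝒞 R z ((𝒞.chart R).r₁ b) := by
  have key : (Algebra.TensorProduct.lift (AlgHom.id R R) (z.comp 𝒞.r₁)
      (fun _ _ => Commute.all _ _) : R ⊗[k] 𝒞.A₁ →ₐ[R] R) =
      (Algebra.TensorProduct.lift (AlgHom.id R R) z (fun _ _ => Commute.all _ _)).comp
        (Algebra.TensorProduct.map (AlgHom.id R R) 𝒞.r₁) := by
    apply Algebra.TensorProduct.ext
    · ext
    · ext a
      simp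
  exact DFunLike.congr_fun key b

/-- Evaluation at `z ∘ r₂` is evaluation at `z` after restriction to the overlap. -/
theorem ev₂_comp_r₂ (R : Type u) [CommRing R] [Algebra k R] (z : 𝒞.A₁₂ →ₐ[k] R)
    (b : (𝒞.chart R).B₂) :
    ev₂ 𝒞 R (z.comp 𝒞.r₂) b = ev₁₂ 𝒞 R z ((𝒞.chart R).r₂ b) := by
  have key : (Algebra.TensorProduct.lift (AlgHom.id R R) (z.comp 𝒞.r₂)
      (fun _ _ => Commute.all _ _) : R ⊗[k] 𝒞.A₂ →ₐ[R] R) =
      (Algebra.TensorProduct.lift (AlgHom.id R R) z (fun _ _ => Commute.all _ _)).comp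
        (Algebra.TensorProduct.map (AlgHom.id R R) 𝒞.r₂) := by
    apply Algebra.TensorProduct.ext
    · ext
    · ext a
      simp
  exact DFunLike.congr_fun key b

theorem ker_ev₁_comp_r₁ (R : Type u) [CommRing R] [Algebra k R] (z : 𝒞.A₁₂ →ₐ[k] R) :
    RingHom.ker (ev₁ 𝒞 R (z.comp 𝒞.r₁)) =
      (RingHom.ker (ev₁₂ 𝒞 R z)).comap (𝒞.chart R).r₁ := by
  ext b
  rw [RingHom.mem_ker, Ideal.mem_comap, RingHom.mem_ker, ev₁_comp_r₁]

theorem ker_ev₂_comp_r₂ (R : Type u) [CommRing R] [Algebra k R] (z : 𝒞.A₁₂ →ₐ[k] R) :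
    RingHom.ker (ev₂ 𝒞 R (z.comp 𝒞.r₂)) =
      (RingHom.ker (ev₁₂ 𝒞 R z)).comap (𝒞.chart R).r₂ := by
  ext b
  rw [RingHom.mem_ker, Ideal.mem_comap, RingHom.mem_ker, ev₂_comp_r₂]

/-- (Ovl) The two descriptions of a point of the overlap agree. -/
theorem pt₁_comp_r₁ (R : Type u) [CommRing R] [Algebra k R] (z : 𝒞.A₁₂ →ₐ[k] R) :
    pt₁ 𝒞 R (z.comp 𝒞.r₁) = pt₂ 𝒞 R (z.comp 𝒞.r₂) := by
  unfold pt₁ pt₂
  rw [ker_ev₁_comp_r₁, ker_ev₂_comp_r₂]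
  ext1
  · rw [IdealDatum.ofI₁_I₁, IdealDatum.ofI₂_I₁, IdealDatum.map_comap_r₂]
  · rw [IdealDatum.ofI₁_I₂, IdealDatum.ofI₂_I₂, IdealDatum.map_comap_r₁]

end Fermat.Agent.S25.CONN
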