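/-
S25 package CONN, leaf (P2) (helper3025): point-product families commute with base change.

`fam_isBC` : `IsBC (𝒞.chartHom φ) (fam 𝒞 R n x y) (fam 𝒞 R' n (φ ∘ x) (φ ∘ y))`.

Ingredients (all in `namespace Fermat.Agent.S25.CONN.P2`):
* `existsUnique_lift`  : for invertible ideals `I ⊆ B`, `I' = I.map ψ ⊆ B'`, the map `I → I'`
  has the universal property of `B' ⊗[B] I` (a surjection of invertible modules is bijective);
* `comap_map_r₁/₂`     : contraction-extension when `f` (resp. `g`) is a unit modulo the ideal;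
* `map_ofI₂_I₁`, `map_ofI₁_I₂` : the "other chart" ideal of a point commutes with base change;
* `map_ker_ev₁/₂`      : graph ideals commute with base change;
* `isBC_toGlued_twist` : generic base change statement for invertible ideal data.
-/
import Fermat.Agent.S25.AlgDefs
import Fermat.Agent.S25.BC
import Fermat.Agent.S25.CONN.Points
import Fermat.Agent.S25.CONN.P1

set_option autoImplicit false
set_option linter.style.haveILetI false

universe u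

namespace Fermat.Agent.S25.CONN

open Fermat.Agent.S25 GluedModule

open scoped TensorProduct

namespace P2

/-! ### A single ring map: the universal property of an extended invertible ideal -/

section SingleRing

variable {B B' : Type u} [CommRing B] [CommRing B'] (ψ : B →+* B')

/-- For invertible ideals `I ⊆ B` and `I' = I.map ψ ⊆ B'`, the additive map `I → I'` induced by
`ψ` has the universal property of the base change `B' ⊗[B] I`. -/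
theorem existsUnique_lift (I : Ideal B) (I' : Ideal B') (hI' : I' = I.map ψ)
    (hinv : Module.Invertible B I) (hinv' : Module.Invertible B' I')
    (j : I →+ I') (hj : ∀ a : I, (j a : B') = ψ a)
    (Q : Type u) [AddCommGroup Q] [Module B' Q] (h : I →+ Q)
    (hh : ∀ (b : B) (n : I), h (b • n) = ψ b • h n) :
    ∃! h' : I' →ₗ[B'] Q, ∀ n, h' (j n) = h n := by
  letI : Algebra B B' := ψ.toAlgebra
  letI : Module B Q := Module.compHom Q ψ
  haveI : IsScalarTower B B' Q := ⟨fun b b' q => by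
    change (ψ b * b') • q = ψ b • b' • q
    rw [mul_smul]⟩
  -- the `B`-linear versions of `j` and `h`
  let jₗ : I →ₗ[B] I' :=
    { toFun := j
      map_add' := j.map_add
      map_smul' := fun b a => Subtype.ext (by
        change (j (b • a) : B') = ψ b * (j a : B')
        rw [hj, hj]
        change ψ (b * (a : B)) = _
        rw [map_mul]) }
  let hₗ : I →ₗ[B] Q :=
    { toFun := h
      map_add' := h.map_add
      map_smul' := fun b a => hh b a }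
  let Θ : B' ⊗[B] I →ₗ[B'] I' := jₗ.liftBaseChange B'
  have hΘ : ∀ (b' : B') (a : I), Θ (b' ⊗ₜ[B] a) = b' • j a := fun b' a => rfl
  have hsurj : Function.Surjective Θ := by
    rintro ⟨y, hy⟩
    have hy' : y ∈ Ideal.span (ψ '' (I : Set B)) := by rw [hI'] at hy; exact hy
    have key : ∀ (z : B') (hz : z ∈ Ideal.span (ψ '' (I : Set B))),
        ∃ t : B' ⊗[B] I, (Θ t : B') = z := by
      intro z hz
      induction hz using Submodule.span_induction with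
      | mem z hz =>
        obtain ⟨a, ha, rfl⟩ := hz
        refine ⟨1 ⊗ₜ[B] ⟨a, ha⟩, ?_⟩
        rw [hΘ, one_smul, hj]
      | zero => exact ⟨0, by simp⟩
      | add z w _ _ hz hw =>
        obtain ⟨t, rfl⟩ := hz
        obtain ⟨s, rfl⟩ := hw
        exact ⟨t + s, by simp⟩
      | smul c z _ hz =>
        obtain ⟨t, rfl⟩ := hz
        exact ⟨c • t, by simp⟩
    obtain ⟨t, ht⟩ := key y hy'
    exact ⟨t, Subtype.ext ht⟩
  have hbij : Function.Bijective Θ := Module.Invertible.bijective_of_surjective hsurj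
  let e : (B' ⊗[B] I) ≃ₗ[B'] I' := LinearEquiv.ofBijective Θ hbij
  refine ⟨(hₗ.liftBaseChange B').comp e.symm.toLinearMap, ?_, ?_⟩
  · intro n
    have h1 : e.symm (j n) = 1 ⊗ₜ[B] n := by
      rw [LinearEquiv.symm_apply_eq]
      change j n = Θ (1 ⊗ₜ[B] n)
      rw [hΘ, one_smul]
    change hₗ.liftBaseChange B' (e.symm (j n)) = h n
    rw [h1, LinearMap.liftBaseChange_tmul, one_smul]
    rfl
  · intro h' hh'
    apply LinearMap.ext
    intro y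
    obtain ⟨t, rfl⟩ := hsurj y
    change h' (Θ t) = hₗ.liftBaseChange B' (e.symm (e t))
    rw [LinearEquiv.symm_apply_apply]
    induction t using TensorProduct.induction_on with
    | zero => simp
    | tmul b' a =>
      rw [hΘ, map_smul, hh', LinearMap.liftBaseChange_tmul]
      rfl
    | add t s ht hs => rw [map_add, map_add, map_add, ht, hs]

end SingleRing

/-! ### Two-charts: contraction-extension and the other chart of a point ideal -/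

section TwoChartLemmas

variable {R : Type u} [CommRing R] (𝔹 : TwoChart R)

/-- If `f` is a unit modulo `I`, then `I` is the contraction of its extension to the overlap. -/
theorem comap_map_r₁ (I : Ideal 𝔹.B₁) (c : 𝔹.B₁) (hc : 1 - c * 𝔹.f ∈ I) :
    (I.map 𝔹.r₁).comap 𝔹.r₁ = I := by
  apply le_antisymm
  · intro b hb
    have hb' : 𝔹.r₁ b ∈ (IdealDatum.ofI₁ I).I₁₂ := hb
    obtain ⟨a, m, ha, hab⟩ := (IdealDatum.ofI₁ I).exists_of_mem_I₁₂ hb'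
    have ha' : a ∈ I := ha
    have h0 : 𝔹.r₁ (𝔹.f ^ m * b - a) = 0 := by
      rw [map_sub, map_mul, map_pow, hab, ← mul_assoc, ← mul_pow, 𝔹.fg, one_pow, one_mul,
        sub_self]
    obtain ⟨n, hn⟩ := 𝔹.ker₁ _ h0
    have h1 : 𝔹.f ^ (n + m) * b ∈ I := by
      have h2 : 𝔹.f ^ (n + m) * b = 𝔹.f ^ n * a := by
        rw [mul_sub, sub_eq_zero] at hn
        rw [pow_add, mul_assoc, hn]
      rw [h2]
      exact I.mul_mem_left _ ha'
    rw [← Ideal.Quotient.eq_zero_iff_mem] at h1 hc ⊢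
    rw [map_mul, map_pow] at h1
    rw [map_sub, map_one, map_mul, sub_eq_zero] at hc
    have hu : IsUnit (Ideal.Quotient.mk I 𝔹.f) := IsUnit.of_mul_eq_one_right _ hc.symm
    exact (hu.pow (n + m)).mul_right_eq_zero.mp h1
  · exact Ideal.le_comap_map

/-- If `g` is a unit modulo `I`, then `I` is the contraction of its extension to the overlap. -/
theorem comap_map_r₂ (I : Ideal 𝔹.B₂) (c : 𝔹.B₂) (hc : 1 - c * 𝔹.g ∈ I) :
    (I.map 𝔹.r₂).comap 𝔹.r₂ = I := by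
  apply le_antisymm
  · intro b hb
    have hb' : 𝔹.r₂ b ∈ (IdealDatum.ofI₂ I).I₁₂ := by
      rw [IdealDatum.I₁₂_eq₂]; exact hb
    obtain ⟨a, m, ha, hab⟩ := (IdealDatum.ofI₂ I).exists_of_mem_I₁₂' hb'
    have ha' : a ∈ I := ha
    have h0 : 𝔹.r₂ (𝔹.g ^ m * b - a) = 0 := by
      rw [map_sub, map_mul, map_pow, hab, ← mul_assoc, ← mul_pow, 𝔹.gf, one_pow, one_mul,
        sub_self]
    obtain ⟨n, hn⟩ := 𝔹.ker₂ _ h0
    have h1 : 𝔹.g ^ (n + m) * b ∈ I := by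
      have h2 : 𝔹.g ^ (n + m) * b = 𝔹.g ^ n * a := by
        rw [mul_sub, sub_eq_zero] at hn
        rw [pow_add, mul_assoc, hn]
      rw [h2]
      exact I.mul_mem_left _ ha'
    rw [← Ideal.Quotient.eq_zero_iff_mem] at h1 hc ⊢
    rw [map_mul, map_pow] at h1
    rw [map_sub, map_one, map_mul, sub_eq_zero] at hc
    have hu : IsUnit (Ideal.Quotient.mk I 𝔹.g) := IsUnit.of_mul_eq_one_right _ hc.symm
    exact (hu.pow (n + m)).mul_right_eq_zero.mp h1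
  · exact Ideal.le_comap_map

variable {𝔹} {R' : Type u} [CommRing R'] {φ : R →+* R'} {𝔹' : TwoChart R'}
  (Ψ : TwoChart.Hom φ 𝔹 𝔹')

/-- A morphism of two-charts maps the unit `u ^ n` to the unit `u ^ n`. -/
theorem map_u_zpow (n : ℤ) :
    Ψ.ψ₁₂ ((𝔹.u ^ n : 𝔹.B₁₂ˣ) : 𝔹.B₁₂) = ((𝔹'.u ^ n : 𝔹'.B₁₂ˣ) : 𝔹'.B₁₂) := by
  have h : Units.map (Ψ.ψ₁₂ : 𝔹.B₁₂ →* 𝔹'.B₁₂) 𝔹.u = 𝔹'.u := by
    apply Units.ext
    change Ψ.ψ₁₂ (𝔹.r₁ 𝔹.f) = 𝔹'.r₁ 𝔹'.f
    rw [Ψ.comm₁, Ψ.map_f]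
  rw [← h, ← map_zpow]
  rfl

/-- The chart-1 ideal of (the closure of) a closed subscheme of chart 2 commutes with base change,
provided `f` is a unit modulo it. -/
theorem map_ofI₂_I₁ (K : Ideal 𝔹.B₂) (c : 𝔹.B₁) (hc : 1 - c * 𝔹.f ∈ (IdealDatum.ofI₂ K).I₁) :
    ((IdealDatum.ofI₂ K).I₁).map Ψ.ψ₁ = (IdealDatum.ofI₂ (K.map Ψ.ψ₂)).I₁ := by
  have hext : ((IdealDatum.ofI₂ K).I₁.map Ψ.ψ₁).map 𝔹'.r₁ = (K.map Ψ.ψ₂).map 𝔹'.r₂ := by
    apply le_antisymm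
    · rw [Ideal.map_le_iff_le_comap, Ideal.map_le_iff_le_comap]
      intro a ha
      rw [Ideal.mem_comap, Ideal.mem_comap, ← Ψ.comm₁]
      have ha' : 𝔹.r₁ a ∈ K.map 𝔹.r₂ := ha
      have hle : K.map 𝔹.r₂ ≤ ((K.map Ψ.ψ₂).map 𝔹'.r₂).comap Ψ.ψ₁₂ := by
        rw [Ideal.map_le_iff_le_comap]
        intro κ hκ
        rw [Ideal.mem_comap, Ideal.mem_comap, Ψ.comm₂]
        exact Ideal.mem_map_of_mem _ (Ideal.mem_map_of_mem _ hκ)
      exact hle ha'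
    · rw [Ideal.map_le_iff_le_comap, Ideal.map_le_iff_le_comap]
      intro κ hκ
      rw [Ideal.mem_comap, Ideal.mem_comap, ← Ψ.comm₂]
      have hκ' : 𝔹.r₂ κ ∈ ((IdealDatum.ofI₂ K).I₁).map 𝔹.r₁ := by
        rw [(IdealDatum.ofI₂ K).compat]
        exact Ideal.mem_map_of_mem _ hκ
      have hle : ((IdealDatum.ofI₂ K).I₁).map 𝔹.r₁ ≤
          (((IdealDatum.ofI₂ K).I₁.map Ψ.ψ₁).map 𝔹'.r₁).comap Ψ.ψ₁₂ := by
        rw [Ideal.map_le_iff_le_comap]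
        intro a ha
        rw [Ideal.mem_comap, Ideal.mem_comap, Ψ.comm₁]
        exact Ideal.mem_map_of_mem _ (Ideal.mem_map_of_mem _ ha)
      exact hle hκ'
  have hc' : 1 - Ψ.ψ₁ c * 𝔹'.f ∈ (IdealDatum.ofI₂ K).I₁.map Ψ.ψ₁ := by
    have h := Ideal.mem_map_of_mem Ψ.ψ₁ hc
    rwa [map_sub, map_one, map_mul, Ψ.map_f] at h
  have h2 := comap_map_r₁ 𝔹' _ _ hc'
  rw [← h2, hext]
  rfl

/-- The chart-2 ideal of (the closure of) a closed subscheme of chart 1 commutes with base change,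
provided `g` is a unit modulo it. -/
theorem map_ofI₁_I₂ (K : Ideal 𝔹.B₁) (c : 𝔹.B₂) (hc : 1 - c * 𝔹.g ∈ (IdealDatum.ofI₁ K).I₂) :
    ((IdealDatum.ofI₁ K).I₂).map Ψ.ψ₂ = (IdealDatum.ofI₁ (K.map Ψ.ψ₁)).I₂ := by
  have hext : ((IdealDatum.ofI₁ K).I₂.map Ψ.ψ₂).map 𝔹'.r₂ = (K.map Ψ.ψ₁).map 𝔹'.r₁ := by
    apply le_antisymm
    · rw [Ideal.map_le_iff_le_comap, Ideal.map_le_iff_le_comap]
      intro a ha
      rw [Ideal.mem_comap, Ideal.mem_comap, ← Ψ.comm₂]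
      have ha' : 𝔹.r₂ a ∈ K.map 𝔹.r₁ := ha
      have hle : K.map 𝔹.r₁ ≤ ((K.map Ψ.ψ₁).map 𝔹'.r₁).comap Ψ.ψ₁₂ := by
        rw [Ideal.map_le_iff_le_comap]
        intro κ hκ
        rw [Ideal.mem_comap, Ideal.mem_comap, Ψ.comm₁]
        exact Ideal.mem_map_of_mem _ (Ideal.mem_map_of_mem _ hκ)
      exact hle ha'
    · rw [Ideal.map_le_iff_le_comap, Ideal.map_le_iff_le_comap]
      intro κ hκ
      rw [Ideal.mem_comap, Ideal.mem_comap, ← Ψ.comm₁]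
      have hκ' : 𝔹.r₁ κ ∈ ((IdealDatum.ofI₁ K).I₂).map 𝔹.r₂ := by
        rw [← (IdealDatum.ofI₁ K).compat]
        exact Ideal.mem_map_of_mem _ hκ
      have hle : ((IdealDatum.ofI₁ K).I₂).map 𝔹.r₂ ≤
          (((IdealDatum.ofI₁ K).I₂.map Ψ.ψ₂).map 𝔹'.r₂).comap Ψ.ψ₁₂ := by
        rw [Ideal.map_le_iff_le_comap]
        intro a ha
        rw [Ideal.mem_comap, Ideal.mem_comap, Ψ.comm₂]
        exact Ideal.mem_map_of_mem _ (Ideal.mem_map_of_mem _ ha)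
      exact hle hκ'
  have hc' : 1 - Ψ.ψ₂ c * 𝔹'.g ∈ (IdealDatum.ofI₁ K).I₂.map Ψ.ψ₂ := by
    have h := Ideal.mem_map_of_mem Ψ.ψ₂ hc
    rwa [map_sub, map_one, map_mul, Ψ.map_g] at h
  have h2 := comap_map_r₂ 𝔹' _ _ hc'
  rw [← h2, hext]
  rfl

/-- `f` is a unit modulo the chart-1 ideal of a chart-2 subscheme on which `g` is a scalar. -/
theorem one_sub_mem_ofI₂_I₁ (K : Ideal 𝔹.B₂) (t : R) (ht : 𝔹.g - algebraMap R 𝔹.B₂ t ∈ K) :
    1 - algebraMap R 𝔹.B₁ t * 𝔹.f ∈ (IdealDatum.ofI₂ K).I₁ := by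
  change 𝔹.r₁ (1 - algebraMap R 𝔹.B₁ t * 𝔹.f) ∈ K.map 𝔹.r₂
  have h1 : 𝔹.r₁ (1 - algebraMap R 𝔹.B₁ t * 𝔹.f) =
      𝔹.r₁ 𝔹.f * 𝔹.r₂ (𝔹.g - algebraMap R 𝔹.B₂ t) := by
    rw [map_sub, map_sub, map_one, map_mul, AlgHom.commutes, AlgHom.commutes, mul_sub, 𝔹.fg,
      mul_comm]
  rw [h1]
  exact Ideal.mul_mem_left _ _ (Ideal.mem_map_of_mem _ ht)

/-- `g` is a unit modulo the chart-2 ideal of a chart-1 subscheme on which `f` is a scalar. -/
theorem one_sub_mem_ofI₁_I₂ (K : Ideal 𝔹.B₁) (t : R) (ht : 𝔹.f - algebraMap R 𝔹.B₁ t ∈ K) :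
    1 - algebraMap R 𝔹.B₂ t * 𝔹.g ∈ (IdealDatum.ofI₁ K).I₂ := by
  change 𝔹.r₂ (1 - algebraMap R 𝔹.B₂ t * 𝔹.g) ∈ K.map 𝔹.r₁
  have h1 : 𝔹.r₂ (1 - algebraMap R 𝔹.B₂ t * 𝔹.g) =
      𝔹.r₂ 𝔹.g * 𝔹.r₁ (𝔹.f - algebraMap R 𝔹.B₁ t) := by
    rw [map_sub, map_sub, map_one, map_mul, AlgHom.commutes, AlgHom.commutes, mul_sub, 𝔹.gf,
      mul_comm]
  rw [h1]
  exact Ideal.mul_mem_left _ _ (Ideal.mem_map_of_mem _ ht)

/-- The chart-1 ideal, as a monoid homomorphism. -/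
def I₁Hom (𝔹 : TwoChart R) : IdealDatum 𝔹 →* Ideal 𝔹.B₁ where
  toFun := IdealDatum.I₁
  map_one' := IdealDatum.one_I₁.trans Ideal.one_eq_top.symm
  map_mul' _ _ := rfl

/-- The chart-2 ideal, as a monoid homomorphism. -/
def I₂Hom (𝔹 : TwoChart R) : IdealDatum 𝔹 →* Ideal 𝔹.B₂ where
  toFun := IdealDatum.I₂
  map_one' := IdealDatum.one_I₂.trans Ideal.one_eq_top.symm
  map_mul' _ _ := rfl

theorem prod_I₁ {ι : Type*} (s : Finset ι) (D : ι → IdealDatum 𝔹) :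
    (∏ j ∈ s, D j).I₁ = ∏ j ∈ s, (D j).I₁ := map_prod (I₁Hom 𝔹) D s

theorem prod_I₂ {ι : Type*} (s : Finset ι) (D : ι → IdealDatum 𝔹) :
    (∏ j ∈ s, D j).I₂ = ∏ j ∈ s, (D j).I₂ := map_prod (I₂Hom 𝔹) D s

/-- Generic base change statement for invertible ideal data. -/
theorem isBC_toGlued_twist (J : IdealDatum 𝔹) (J' : IdealDatum 𝔹')
    (h₁ : J'.I₁ = J.I₁.map Ψ.ψ₁) (h₂ : J'.I₂ = J.I₂.map Ψ.ψ₂)
    (hJ : J.IsInvertible) (hJ' : J'.IsInvertible) (n : ℤ) :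
    IsBC Ψ (J.toGlued.twist n) (J'.toGlued.twist n) := by
  have hmem₁ : ∀ a : J.I₁, Ψ.ψ₁ a ∈ J'.I₁ := fun a => by
    rw [h₁]; exact Ideal.mem_map_of_mem _ a.2
  have hmem₂ : ∀ a : J.I₂, Ψ.ψ₂ a ∈ J'.I₂ := fun a => by
    rw [h₂]; exact Ideal.mem_map_of_mem _ a.2
  have hmem₁₂ : ∀ a : J.I₁₂, Ψ.ψ₁₂ a ∈ J'.I₁₂ := by
    intro a
    have hle : J.I₁₂ ≤ J'.I₁₂.comap Ψ.ψ₁₂ := by
      unfold IdealDatum.I₁₂
      rw [Ideal.map_le_iff_le_comap]
      intro b hb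
      rw [Ideal.mem_comap, Ideal.mem_comap, Ψ.comm₁]
      exact Ideal.mem_map_of_mem _ (hmem₁ ⟨b, hb⟩)
    exact hle a.2
  let j₁ : J.I₁ →+ J'.I₁ :=
    { toFun := fun a => ⟨Ψ.ψ₁ a, hmem₁ a⟩
      map_zero' := Subtype.ext (map_zero _)
      map_add' := fun a b => Subtype.ext (map_add _ _ _) }
  let j₂ : J.I₂ →+ J'.I₂ :=
    { toFun := fun a => ⟨Ψ.ψ₂ a, hmem₂ a⟩
      map_zero' := Subtype.ext (map_zero _)
      map_add' := fun a b => Subtype.ext (map_add _ _ _) }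
  let j₁₂ : J.I₁₂ →+ J'.I₁₂ :=
    { toFun := fun a => ⟨Ψ.ψ₁₂ a, hmem₁₂ a⟩
      map_zero' := Subtype.ext (map_zero _)
      map_add' := fun a b => Subtype.ext (map_add _ _ _) }
  refine ⟨{ j₁ := j₁, j₂ := j₂, j₁₂ := j₁₂, j₁_smul := ?_, j₂_smul := ?_, j₁₂_smul := ?_,
            comm₁ := ?_, comm₂ := ?_, univ₁ := ?_, univ₂ := ?_ }⟩
  · intro b a
    exact Subtype.ext (map_mul Ψ.ψ₁ b a)
  · intro b a
    exact Subtype.ext (map_mul Ψ.ψ₂ b a)
  · intro b a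
    exact Subtype.ext (map_mul Ψ.ψ₁₂ b a)
  · intro a
    exact Subtype.ext (Ψ.comm₁ a)
  · intro a
    apply Subtype.ext
    change Ψ.ψ₁₂ (((𝔹.u ^ n : 𝔹.B₁₂ˣ) : 𝔹.B₁₂) * 𝔹.r₂ a) =
      ((𝔹'.u ^ n : 𝔹'.B₁₂ˣ) : 𝔹'.B₁₂) * 𝔹'.r₂ (Ψ.ψ₂ a)
    rw [map_mul, map_u_zpow, Ψ.comm₂]
  · intro Q _ _ h hh
    exact existsUnique_lift Ψ.ψ₁ J.I₁ J'.I₁ h₁ hJ.inv₁ hJ'.inv₁ j₁ (fun _ => rfl) Q h hh
  · intro Q _ _ h hh
    exact existsUnique_lift Ψ.ψ₂ J.I₂ J'.I₂ h₂ hJ.inv₂ hJ'.inv₂ j₂ (fun _ => rfl) Q h hh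

end TwoChartLemmas

/-! ### Graph ideals of points commute with base change -/

section Points

theorem ideal_map_prod {B B' : Type*} [CommRing B] [CommRing B'] (ψ : B →+* B') {ι : Type*}
    (s : Finset ι) (I : ι → Ideal B) : (∏ j ∈ s, I j).map ψ = ∏ j ∈ s, (I j).map ψ :=
  map_prod (Ideal.mapHom ψ) I s

variable {k : Type u} [Field k] {R R' : Type u} [CommRing R] [Algebra k R]
  [CommRing R'] [Algebra k R'] (φ : R →ₐ[k] R')

/-- Evaluation at a point commutes with base change of the point. -/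
theorem lift_map {A : Type u} [CommRing A] [Algebra k A] (x : A →ₐ[k] R) (b : R ⊗[k] A) :
    Algebra.TensorProduct.lift (AlgHom.id R' R') (φ.comp x) (fun _ _ => Commute.all _ _)
        (Algebra.TensorProduct.map φ (AlgHom.id k A) b) =
      φ (Algebra.TensorProduct.lift (AlgHom.id R R) x (fun _ _ => Commute.all _ _) b) := by
  induction b using TensorProduct.induction_on with
  | zero => simp
  | tmul c a =>
    rw [Algebra.TensorProduct.map_tmul, Algebra.TensorProduct.lift_tmul,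
      Algebra.TensorProduct.lift_tmul, map_mul]
    rfl
  | add b b' hb hb' => rw [map_add, map_add, map_add, map_add, hb, hb']

/-- The graph ideal of a point commutes with base change. -/
theorem map_ker_lift {A : Type u} [CommRing A] [Algebra k A] (x : A →ₐ[k] R) :
    (RingHom.ker (Algebra.TensorProduct.lift (AlgHom.id R R) x
        (fun _ _ => Commute.all _ _))).map (Algebra.TensorProduct.map φ (AlgHom.id k A)).toRingHom =
      RingHom.ker (Algebra.TensorProduct.lift (AlgHom.id R' R') (φ.comp x)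
        (fun _ _ => Commute.all _ _)) := by
  apply le_antisymm
  · rw [Ideal.map_le_iff_le_comap]
    intro b hb
    rw [Ideal.mem_comap, RingHom.mem_ker]
    change Algebra.TensorProduct.lift (AlgHom.id R' R') (φ.comp x) (fun _ _ => Commute.all _ _)
        (Algebra.TensorProduct.map φ (AlgHom.id k A) b) = 0
    rw [lift_map, (RingHom.mem_ker).1 hb, map_zero]
  · have key : ∀ b' : R' ⊗[k] A,
        b' - (Algebra.TensorProduct.lift (AlgHom.id R' R') (φ.comp x)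
          (fun _ _ => Commute.all _ _) b') ⊗ₜ[k] (1 : A) ∈
          (RingHom.ker (Algebra.TensorProduct.lift (AlgHom.id R R) x
            (fun _ _ => Commute.all _ _))).map
            (Algebra.TensorProduct.map φ (AlgHom.id k A)).toRingHom := by
      intro b'
      induction b' using TensorProduct.induction_on with
      | zero => simp
      | tmul c a =>
        have h1 : ((1 : R) ⊗ₜ[k] a - (x a) ⊗ₜ[k] (1 : A) : R ⊗[k] A) ∈
            RingHom.ker (Algebra.TensorProduct.lift (AlgHom.id R R) x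
              (fun _ _ => Commute.all _ _)) := by
          rw [RingHom.mem_ker, map_sub, Algebra.TensorProduct.lift_tmul,
            Algebra.TensorProduct.lift_tmul, map_one, map_one, one_mul, mul_one]
          exact sub_self _
        have h2 := Ideal.mul_mem_left _ (c ⊗ₜ[k] (1 : A) : R' ⊗[k] A)
          (Ideal.mem_map_of_mem (Algebra.TensorProduct.map φ (AlgHom.id k A)).toRingHom h1)
        have h3 : (c ⊗ₜ[k] (1 : A) : R' ⊗[k] A) *
            (Algebra.TensorProduct.map φ (AlgHom.id k A)).toRingHom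
              ((1 : R) ⊗ₜ[k] a - (x a) ⊗ₜ[k] (1 : A)) =
            c ⊗ₜ[k] a - (Algebra.TensorProduct.lift (AlgHom.id R' R') (φ.comp x)
              (fun _ _ => Commute.all _ _) (c ⊗ₜ[k] a)) ⊗ₜ[k] (1 : A) := by
          change (c ⊗ₜ[k] (1 : A) : R' ⊗[k] A) *
            Algebra.TensorProduct.map φ (AlgHom.id k A)
              ((1 : R) ⊗ₜ[k] a - (x a) ⊗ₜ[k] (1 : A)) = _
          rw [map_sub, Algebra.TensorProduct.map_tmul, Algebra.TensorProduct.map_tmul, mul_sub,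
            Algebra.TensorProduct.tmul_mul_tmul, Algebra.TensorProduct.tmul_mul_tmul,
            Algebra.TensorProduct.lift_tmul]
          simp
        rw [← h3]
        exact h2
      | add b b' hb hb' =>
        have h4 : b + b' - (Algebra.TensorProduct.lift (AlgHom.id R' R') (φ.comp x)
              (fun _ _ => Commute.all _ _) (b + b')) ⊗ₜ[k] (1 : A) =
            (b - (Algebra.TensorProduct.lift (AlgHom.id R' R') (φ.comp x)
              (fun _ _ => Commute.all _ _) b) ⊗ₜ[k] (1 : A)) +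
            (b' - (Algebra.TensorProduct.lift (AlgHom.id R' R') (φ.comp x)
              (fun _ _ => Commute.all _ _) b') ⊗ₜ[k] (1 : A)) := by
          rw [map_add, TensorProduct.add_tmul]
          abel
        rw [h4]
        exact Ideal.add_mem _ hb hb'
    intro b' hb'
    have h := key b'
    rwa [(RingHom.mem_ker).1 hb', TensorProduct.zero_tmul, sub_zero] at h

variable (𝒞 : CurveData k)

theorem map_ker_ev₁ (x : 𝒞.A₁ →ₐ[k] R) :
    (RingHom.ker (ev₁ 𝒞 R x)).map (𝒞.chartHom φ).ψ₁ = RingHom.ker (ev₁ 𝒞 R' (φ.comp x)) :=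
  map_ker_lift φ x

theorem map_ker_ev₂ (y : 𝒞.A₂ →ₐ[k] R) :
    (RingHom.ker (ev₂ 𝒞 R y)).map (𝒞.chartHom φ).ψ₂ = RingHom.ker (ev₂ 𝒞 R' (φ.comp y)) :=
  map_ker_lift φ y

theorem f_sub_mem_ker_ev₁ (x : 𝒞.A₁ →ₐ[k] R) :
    (𝒞.chart R).f - algebraMap R (𝒞.chart R).B₁ (x 𝒞.f) ∈ RingHom.ker (ev₁ 𝒞 R x) := by
  rw [RingHom.mem_ker, map_sub, AlgHom.commutes]
  change ev₁ 𝒞 R x ((1 : R) ⊗ₜ[k] 𝒞.f) - x 𝒞.f = 0
  rw [ev₁_tmul, one_mul, sub_self]

theorem g_sub_mem_ker_ev₂ (y : 𝒞.A₂ →ₐ[k] R) :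
    (𝒞.chart R).g - algebraMap R (𝒞.chart R).B₂ (y 𝒞.g) ∈ RingHom.ker (ev₂ 𝒞 R y) := by
  rw [RingHom.mem_ker, map_sub, AlgHom.commutes]
  change ev₂ 𝒞 R y ((1 : R) ⊗ₜ[k] 𝒞.g) - y 𝒞.g = 0
  rw [ev₂_tmul, one_mul, sub_self]

theorem map_pt₁_I₁ (x : 𝒞.A₁ →ₐ[k] R) :
    ((pt₁ 𝒞 R x).I₁).map (𝒞.chartHom φ).ψ₁ = (pt₁ 𝒞 R' (φ.comp x)).I₁ :=
  map_ker_ev₁ φ 𝒞 x

theorem map_pt₁_I₂ (x : 𝒞.A₁ →ₐ[k] R) :
    ((pt₁ 𝒞 R x).I₂).map (𝒞.chartHom φ).ψ₂ = (pt₁ 𝒞 R' (φ.comp x)).I₂ := by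
  have h := map_ofI₁_I₂ (𝒞.chartHom φ) (RingHom.ker (ev₁ 𝒞 R x))
    (algebraMap R (𝒞.chart R).B₂ (x 𝒞.f))
    (one_sub_mem_ofI₁_I₂ (RingHom.ker (ev₁ 𝒞 R x)) (x 𝒞.f) (f_sub_mem_ker_ev₁ 𝒞 x))
  rw [map_ker_ev₁] at h
  exact h

theorem map_pt₂_I₂ (y : 𝒞.A₂ →ₐ[k] R) :
    ((pt₂ 𝒞 R y).I₂).map (𝒞.chartHom φ).ψ₂ = (pt₂ 𝒞 R' (φ.comp y)).I₂ :=
  map_ker_ev₂ φ 𝒞 y

theorem map_pt₂_I₁ (y : 𝒞.A₂ →ₐ[k] R) :
    ((pt₂ 𝒞 R y).I₁).map (𝒞.chartHom φ).ψ₁ = (pt₂ 𝒞 R' (φ.comp y)).I₁ := by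
  have h := map_ofI₂_I₁ (𝒞.chartHom φ) (RingHom.ker (ev₂ 𝒞 R y))
    (algebraMap R (𝒞.chart R).B₁ (y 𝒞.g))
    (one_sub_mem_ofI₂_I₁ (RingHom.ker (ev₂ 𝒞 R y)) (y 𝒞.g) (g_sub_mem_ker_ev₂ 𝒞 y))
  rw [map_ker_ev₂] at h
  exact h

end Points

end P2

variable {k : Type u} [Field k] (𝒞 : CurveData k) [IsAlgClosed k]

/-- (P2) Point-product families commute with base change. -/
theorem fam_isBC {R R' : Type u} [CommRing R] [Algebra k R] [CommRing R'] [Algebra k R']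
    (φ : R →ₐ[k] R') (n : ℤ) {m₁ m₂ : ℕ} (x : Fin m₁ → 𝒞.A₁ →ₐ[k] R)
    (y : Fin m₂ → 𝒞.A₂ →ₐ[k] R) :
    IsBC (𝒞.chartHom φ) (fam 𝒞 R n x y)
      (fam 𝒞 R' n (fun j => φ.comp (x j)) (fun j => φ.comp (y j))) := by
  have hJ := fam_isLineBundle 𝒞 R n x y
  have hJ' := fam_isLineBundle 𝒞 R' n (fun j => φ.comp (x j)) (fun j => φ.comp (y j))
  refine P2.isBC_toGlued_twist (𝒞.chartHom φ)
    ((∏ j, pt₁ 𝒞 R (x j)) * (∏ j, pt₂ 𝒞 R (y j)))
    ((∏ j, pt₁ 𝒞 R' (φ.comp (x j))) * (∏ j, pt₂ 𝒞 R' (φ.comp (y j)))) ?_ ?_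
    ⟨hJ.inv₁, hJ.inv₂⟩ ⟨hJ'.inv₁, hJ'.inv₂⟩ n
  · rw [IdealDatum.mul_I₁, IdealDatum.mul_I₁, P2.prod_I₁, P2.prod_I₁, P2.prod_I₁, P2.prod_I₁,
      Ideal.map_mul, P2.ideal_map_prod, P2.ideal_map_prod]
    congr 1
    · exact Finset.prod_congr rfl fun j _ => (P2.map_pt₁_I₁ φ 𝒞 (x j)).symm
    · exact Finset.prod_congr rfl fun j _ => (P2.map_pt₂_I₁ φ 𝒞 (y j)).symm
  · rw [IdealDatum.mul_I₂, IdealDatum.mul_I₂, P2.prod_I₂, P2.prod_I₂, P2.prod_I₂, P2.prod_I₂,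
      Ideal.map_mul, P2.ideal_map_prod, P2.ideal_map_prod]
    congr 1
    · exact Finset.prod_congr rfl fun j _ => (P2.map_pt₁_I₂ φ 𝒞 (x j)).symm
    · exact Finset.prod_congr rfl fun j _ => (P2.map_pt₂_I₂ φ 𝒞 (y j)).symm

end Fermat.Agent.S25.CONN
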