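/-
S25 package CONN, leaf (Par) of `CONN/Plan.lean` (helper6731): the parameter ring
`κ ⊗ A₁^{⊗ m₁} ⊗ A₂^{⊗ m₂}` with its universal points.  Author: helper3911.
Complete proofs.  Auxiliary declarations live in `Fermat.Agent.S25.CONN.Par`.
-/
import Fermat.Agent.S25.AlgDefs
import Fermat.Agent.S25.CONN.Par.TensorDomain

set_option autoImplicit false
set_option linter.style.haveILetI false

universe u

namespace Fermat.Agent.S25.CONN

open Fermat.Agent.S25

open scoped TensorProduct

namespace Par

variable {k : Type u} [Field k] (𝒞 : CurveData k)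

/-- `A₁` is a finitely generated `k`-algebra (it is finite over `k[f]`). -/
theorem finiteType₁ : Algebra.FiniteType k 𝒞.A₁ := by
  haveI := 𝒞.fin₁
  have h1 : Algebra.FiniteType k (Algebra.adjoin k ({𝒞.f} : Set 𝒞.A₁)) :=
    (Subalgebra.fg_iff_finiteType _).mp ⟨{𝒞.f}, by simp⟩
  exact Algebra.FiniteType.trans h1 inferInstance

/-- `A₂` is a finitely generated `k`-algebra (it is finite over `k[g]`). -/
theorem finiteType₂ : Algebra.FiniteType k 𝒞.A₂ := by
  haveI := 𝒞.fin₂
  have h1 : Algebra.FiniteType k (Algebra.adjoin k ({𝒞.g} : Set 𝒞.A₂)) :=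
    (Subalgebra.fg_iff_finiteType _).mp ⟨{𝒞.g}, by simp⟩
  exact Algebra.FiniteType.trans h1 inferInstance

/-- The property of a `k`-algebra `P` carried through the induction: finite type and
"geometrically a domain" in the strong form `D ⊗[k] P` is a domain for every `k`-domain `D`. -/
structure Good (P : Type u) [CommRing P] [Algebra k P] : Prop where
  finiteType : Algebra.FiniteType k P
  domain : ∀ (D : Type u) [CommRing D] [IsDomain D] [Algebra k D], IsDomain (D ⊗[k] P)

theorem good_self : Good (k := k) k where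
  finiteType := inferInstance
  domain := fun D _ _ _ =>
    (Algebra.TensorProduct.rid k k D).toRingEquiv.toMulEquiv.isDomain D

/-- One more tensor factor: `P ⊗[k] A` is good if `P` is and `A` is a finitely generated
domain (the base field is algebraically closed). -/
theorem good_tensor [IsAlgClosed k] (P : Type u) [CommRing P] [Algebra k P] (hP : Good (k := k) P)
    (A : Type u) [CommRing A] [Algebra k A] [IsDomain A] (hA : Algebra.FiniteType k A) :
    Good (k := k) (P ⊗[k] A) where
  finiteType := by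
    haveI := hA
    exact Algebra.FiniteType.trans hP.finiteType (inferInstance : Algebra.FiniteType P (P ⊗[k] A))
  domain := fun D _ _ _ => by
    haveI : IsDomain (D ⊗[k] P) := hP.domain D
    haveI : IsDomain ((D ⊗[k] P) ⊗[k] A) := isDomain_tensorProduct_of_isAlgClosed
    exact (Algebra.TensorProduct.assoc k k k D P A).symm.toRingEquiv.toMulEquiv.isDomain
      ((D ⊗[k] P) ⊗[k] A)

/-- The product ring `A₁^{⊗ m₁} ⊗ A₂^{⊗ m₂}` over `k` with its universal points and its
universal property (existence part), by induction on the numbers of points. -/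
theorem exists_prodRing [IsAlgClosed k] (m₁ m₂ : ℕ) :
    ∃ (P : Type u) (_ : CommRing P) (_ : Algebra k P) (X : Fin m₁ → 𝒞.A₁ →ₐ[k] P)
      (Y : Fin m₂ → 𝒞.A₂ →ₐ[k] P), Good (k := k) P ∧
      ∀ (T : Type u) [CommRing T] [Algebra k T] (x : Fin m₁ → 𝒞.A₁ →ₐ[k] T)
        (y : Fin m₂ → 𝒞.A₂ →ₐ[k] T),
        ∃ p : P →ₐ[k] T, (∀ j, p.comp (X j) = x j) ∧ ∀ j, p.comp (Y j) = y j := by
  induction m₁ with
  | zero =>
    induction m₂ with
    | zero =>
      refine ⟨k, inferInstance, inferInstance, fun j => j.elim0, fun j => j.elim0, good_self,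
        fun T _ _ x y => ⟨Algebra.ofId k T, fun j => j.elim0, fun j => j.elim0⟩⟩
    | succ m₂ ih =>
      obtain ⟨P, _, _, X, Y, hP, hu⟩ := ih
      haveI := 𝒞.dom₂
      refine ⟨P ⊗[k] 𝒞.A₂, inferInstance, inferInstance, fun j => j.elim0,
        Fin.cons Algebra.TensorProduct.includeRight
          (fun j => Algebra.TensorProduct.includeLeft.comp (Y j)),
        good_tensor P hP 𝒞.A₂ (finiteType₂ 𝒞), fun T _ _ x y => ?_⟩
      obtain ⟨p, -, hpY⟩ := hu T (fun j => j.elim0) (fun j => y j.succ)
      refine ⟨Algebra.TensorProduct.lift p (y 0) (fun _ _ => Commute.all _ _),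
        fun j => j.elim0, fun j => ?_⟩
      refine Fin.cases ?_ (fun i => ?_) j
      · rw [Fin.cons_zero]
        exact Algebra.TensorProduct.lift_comp_includeRight p (y 0) (fun _ _ => Commute.all _ _)
      · rw [Fin.cons_succ, ← AlgHom.comp_assoc, Algebra.TensorProduct.lift_comp_includeLeft]
        exact hpY i
  | succ m₁ ih =>
    obtain ⟨P, _, _, X, Y, hP, hu⟩ := ih
    haveI := 𝒞.dom₁
    refine ⟨P ⊗[k] 𝒞.A₁, inferInstance, inferInstance,
      Fin.cons Algebra.TensorProduct.includeRight
        (fun j => Algebra.TensorProduct.includeLeft.comp (X j)),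
      fun j => Algebra.TensorProduct.includeLeft.comp (Y j),
      good_tensor P hP 𝒞.A₁ (finiteType₁ 𝒞), fun T _ _ x y => ?_⟩
    obtain ⟨p, hpX, hpY⟩ := hu T (fun j => x j.succ) y
    refine ⟨Algebra.TensorProduct.lift p (x 0) (fun _ _ => Commute.all _ _),
      fun j => ?_, fun j => ?_⟩
    · refine Fin.cases ?_ (fun i => ?_) j
      · rw [Fin.cons_zero]
        exact Algebra.TensorProduct.lift_comp_includeRight p (x 0) (fun _ _ => Commute.all _ _)
      · rw [Fin.cons_succ, ← AlgHom.comp_assoc, Algebra.TensorProduct.lift_comp_includeLeft]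
        exact hpX i
    · rw [← AlgHom.comp_assoc, Algebra.TensorProduct.lift_comp_includeLeft]
      exact hpY j

end Par

variable {k : Type u} [Field k] (𝒞 : CurveData k) [IsAlgClosed k]

/-- (Par) The parameter ring `κ ⊗ A₁^{⊗ m₁} ⊗ A₂^{⊗ m₂}` with its universal points. -/
theorem exists_paramRing (κ : Type u) [Field κ] [Algebra k κ] (m₁ m₂ : ℕ) :
    ∃ (R : Type u) (_ : CommRing R) (_ : Algebra k R) (_ : Algebra κ R)
      (_ : IsScalarTower k κ R) (X : Fin m₁ → 𝒞.A₁ →ₐ[k] R) (Y : Fin m₂ → 𝒞.A₂ →ₐ[k] R),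
      Algebra.FiniteType κ R ∧
      (∀ (K : Type u) [Field K] [Algebra κ K], IsDomain (K ⊗[κ] R)) ∧
      ∀ (x : Fin m₁ → 𝒞.A₁ →ₐ[k] κ) (y : Fin m₂ → 𝒞.A₂ →ₐ[k] κ),
        ∃ p : R →ₐ[κ] κ, (∀ j, (p.restrictScalars k).comp (X j) = x j) ∧
          ∀ j, (p.restrictScalars k).comp (Y j) = y j := by
  obtain ⟨P, _, _, X, Y, hP, hu⟩ := Par.exists_prodRing 𝒞 m₁ m₂
  haveI := hP.finiteType
  refine ⟨κ ⊗[k] P, inferInstance, inferInstance, inferInstance, inferInstance,
    fun j => Algebra.TensorProduct.includeRight.comp (X j),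
    fun j => Algebra.TensorProduct.includeRight.comp (Y j), inferInstance, ?_, ?_⟩
  · intro K _ _
    letI : Algebra k K := Algebra.compHom K (algebraMap k κ)
    haveI : IsScalarTower k κ K := IsScalarTower.of_algebraMap_eq (fun _ => rfl)
    haveI : IsDomain (K ⊗[k] P) := hP.domain K
    exact (Algebra.TensorProduct.cancelBaseChange k κ κ K P).toRingEquiv.toMulEquiv.isDomain
      (K ⊗[k] P)
  · intro x y
    obtain ⟨p₀, hpX, hpY⟩ := hu κ x y
    refine ⟨Algebra.TensorProduct.lift (AlgHom.id κ κ) p₀ (fun _ _ => Commute.all _ _),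
      fun j => ?_, fun j => ?_⟩
    · ext a
      simp only [AlgHom.coe_comp, AlgHom.coe_restrictScalars', Function.comp_apply,
        Algebra.TensorProduct.includeRight_apply, Algebra.TensorProduct.lift_tmul, map_one,
        one_mul]
      exact DFunLike.congr_fun (hpX j) a
    · ext a
      simp only [AlgHom.coe_comp, AlgHom.coe_restrictScalars', Function.comp_apply,
        Algebra.TensorProduct.includeRight_apply, Algebra.TensorProduct.lift_tmul, map_one,
        one_mul]
      exact DFunLike.congr_fun (hpY j) a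

end Fermat.Agent.S25.CONN
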