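/-
S25 package CONN, leaf (Triv) (helper2530): a trivial point-product family with any prescribed
chart pattern.  Exact statement of `CONN/Plan.lean` (helper6731); the proof is
`Triv.exists_trivial_fam_of` (in `CONN/Triv/Core.lean`, which does not depend on the other
leaves) applied to the leaves (Ovl) and (Fac).
-/
import Fermat.Agent.S25.CONN.Ovl
import Fermat.Agent.S25.CONN.Fac
import Fermat.Agent.S25.CONN.Triv.Core

set_option autoImplicit false

universe u

namespace Fermat.Agent.S25.CONN

open Fermat.Agent.S25 GluedModule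

open scoped TensorProduct

variable {k : Type u} [Field k] (𝒞 : CurveData k) [IsAlgClosed k]

/-- (Triv).  A trivial point-product family with any prescribed chart pattern (`n₀ = deg f`; the
points are the zeros of `(f - 1)^n`, which lie in both charts). -/
theorem exists_trivial_fam (κ : Type u) [Field κ] [IsAlgClosed κ] [Algebra k κ] :
    ∃ n₀ : ℕ, ∀ n m₁ m₂ : ℕ, m₁ + m₂ = n * n₀ →
      ∃ (x : Fin m₁ → 𝒞.A₁ →ₐ[k] κ) (y : Fin m₂ → 𝒞.A₂ →ₐ[k] κ),
        Nonempty ((fam 𝒞 κ n x y).Iso (unit (𝒞.chart κ))) :=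
  Triv.exists_trivial_fam_of 𝒞 κ (pt₁_comp_r₁ 𝒞 κ) (exists_factorization 𝒞 κ)

end Fermat.Agent.S25.CONN
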