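/-
S25 package CONN -- assembly (helper6731): the stub statement `exists_connectingFamily` from the
eight leaves

  (P1)    `fam_isLineBundle`            CONN/P1.lean     helper6731 (graph ideals: helper325)
  (P2)    `fam_isBC`                    CONN/P2.lean     helper3025
  (Ovl)   `pt₁_comp_r₁`                 CONN/Ovl.lean    helper6731
  (Fac)   `exists_factorization`        CONN/Fac.lean    helper2531
  (Emb)   `exists_iso_idealDatum_twist` CONN/Emb.lean    helper6731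
  (Count) `chi_fam`                     CONN/Count.lean  helper2485
  (Triv)  `exists_trivial_fam`          CONN/Triv.lean   helper2530
  (Par)   `exists_paramRing`            CONN/Par.lean    helper3911

Design: point-product families `fam R n x y = (∏ pt₁ (x j) · ∏ pt₂ (y j))⟨n⟩`
(`= O(n·D_∞ − Σ x_j − Σ y_j)` on `C ×_k Spec R`), see `CONN/Points.lean`.
Only `isBC_of_iso`, `isBC_id_iff`, `chi_congr` (and what P2 uses) come from the BC stub.
-/
import Fermat.Agent.S25.AlgDefs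
import Fermat.Agent.S25.BC
import Fermat.Agent.S25.CONN.Points
import Fermat.Agent.S25.CONN.Ovl
import Fermat.Agent.S25.CONN.Emb
import Fermat.Agent.S25.CONN.Par
import Fermat.Agent.S25.CONN.P1
import Fermat.Agent.S25.CONN.P2
import Fermat.Agent.S25.CONN.Fac
import Fermat.Agent.S25.CONN.Count
import Fermat.Agent.S25.CONN.Triv

set_option autoImplicit false

universe u

namespace Fermat.Agent.S25.CONN

open Fermat.Agent.S25 GluedModule

open scoped TensorProduct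

variable {k : Type u} [Field k] (𝒞 : CurveData k) [IsAlgClosed k]

/-- (E) Over an algebraically closed field every line bundle is a point-product family. -/
theorem exists_iso_fam (κ : Type u) [Field κ] [IsAlgClosed κ] [Algebra k κ]
    (L : GluedModule (𝒞.chart κ)) (hL : L.IsLineBundle) :
    ∃ (n m₁ m₂ : ℕ) (x : Fin m₁ → 𝒞.A₁ →ₐ[k] κ) (y : Fin m₂ → 𝒞.A₂ →ₐ[k] κ),
      Nonempty (L.Iso (fam 𝒞 κ n x y)) := by
  obtain ⟨n, J, hJ, ⟨e⟩⟩ := exists_iso_idealDatum_twist 𝒞 κ L hL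
  obtain ⟨m₁, m₂, x, y, rfl⟩ := exists_factorization 𝒞 κ J hJ
  exact ⟨n, m₁, m₂, x, y, ⟨e⟩⟩

/-- The stub statement of package CONN, derived from the leaves. -/
theorem exists_connectingFamily_main (κ : Type u) [Field κ] [IsAlgClosed κ] [Algebra k κ]
    (L : GluedModule (𝒞.chart κ)) (hL : IsPic0 𝒞 L) : Nonempty (ConnectingFamily 𝒞 κ L) := by
  have hχ : chi L = chi (unit (𝒞.chart κ)) :=
    hL.deg0 κ (AlgHom.id k κ) L ((isBC_id_iff 𝒞 L L).mpr ⟨Iso.refl L⟩)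
  obtain ⟨n, m₁, m₂, x, y, ⟨e⟩⟩ := exists_iso_fam 𝒞 κ L hL.lineBundle
  obtain ⟨n₀, htriv⟩ := exists_trivial_fam 𝒞 κ
  have hm : m₁ + m₂ = n * n₀ := by
    obtain ⟨x₀, y₀, ⟨e₀⟩⟩ := htriv n (n * n₀) 0 (by simp)
    have h1 := chi_fam 𝒞 κ n x y
    have h2 := chi_fam 𝒞 κ n x₀ y₀
    have h3 := chi_congr 𝒞 _ _ ⟨e⟩
    have h4 := chi_congr 𝒞 _ _ ⟨e₀⟩
    have : ((m₁ + m₂ : ℕ) : ℤ) = ((n * n₀ + 0 : ℕ) : ℤ) := by linarith
    exact_mod_cast this
  obtain ⟨x₀, y₀, ⟨e₀⟩⟩ := htriv n m₁ m₂ hm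
  obtain ⟨R, _, _, _, _, X, Y, hft, hdom, hp⟩ := exists_paramRing 𝒞 κ m₁ m₂
  obtain ⟨p₁, hp₁X, hp₁Y⟩ := hp x y
  obtain ⟨p₀, hp₀X, hp₀Y⟩ := hp x₀ y₀
  refine ⟨{ R := R, finiteType := hft, geomDomain := hdom, N := fam 𝒞 R n X Y,
            lineBundle := fam_isLineBundle 𝒞 R n X Y, p₀ := p₀, p₁ := p₁,
            fibre₀ := ?_, fibre₁ := ?_ }⟩
  · have h := fam_isBC 𝒞 (p₀.restrictScalars k) n X Y
    rw [funext hp₀X, funext hp₀Y] at h
    exact isBC_of_iso 𝒞 _ _ _ _ _ h ⟨Iso.refl _⟩ ⟨e₀⟩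
  · have h := fam_isBC 𝒞 (p₁.restrictScalars k) n X Y
    rw [funext hp₁X, funext hp₁Y] at h
    exact isBC_of_iso 𝒞 _ _ _ _ _ h ⟨Iso.refl _⟩ ⟨e.symm⟩

end Fermat.Agent.S25.CONN
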